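import Mathlib
import Fermat.Prelude.Def_GaloisRep_Adic

/-!
# Galois representations in matrix form

`MatRep A` is a homomorphism from `Gal(ℚ̄/ℚ)` to `2 × 2` matrices over `A`, `MCont` its adic
continuity, `mapRep` a change of coefficients and `conjRep` a conjugation.  `toRep` and `matOf`
translate to and from `GaloisRepAdic` (`isEquiv_toRep_matOf`, `matOf_baseChangeAlong`,
`toRep_conj`, `trace_eq_trace_matOf`).
-/

set_option autoImplicit false
set_option linter.unusedSectionVars false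

noncomputable section

namespace FLTAgent.Deform

open IsLocalRing Matrix
open scoped TensorProduct

/-- The absolute Galois group of `ℚ`. -/
abbrev GQ : Type := AlgebraicClosure ℚ ≃ₐ[ℚ] AlgebraicClosure ℚ

/-- Representations of `GQ` by `2 × 2` matrices. -/
abbrev MatRep (A : Type) [CommRing A] : Type := GQ →* Matrix (Fin 2) (Fin 2) A

variable {A B : Type} [CommRing A] [CommRing B]

/-- Apply a ring homomorphism to the entries of a matrix representation. -/
def mapRep (f : A →+* B) (M : MatRep A) : MatRep B :=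
  (RingHom.mapMatrix f : Matrix (Fin 2) (Fin 2) A →+* _).toMonoidHom.comp M

theorem mapRep_apply (f : A →+* B) (M : MatRep A) (g : GQ) : mapRep f M g = (M g).map f := rfl

theorem mapRep_mapRep {C : Type} [CommRing C] (f : A →+* B) (f' : B →+* C) (M : MatRep A) :
    mapRep f' (mapRep f M) = mapRep (f'.comp f) M :=
  MonoidHom.ext fun g => by simp only [mapRep_apply, Matrix.map_map]; rfl

variable [IsLocalRing A] [IsLocalRing B]

/-- Adic continuity, entrywise. -/
def MCont (M : MatRep A) : Prop :=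
  ∀ n : ℕ, ∃ L : IntermediateField ℚ (AlgebraicClosure ℚ), FiniteDimensional ℚ L ∧
    ∀ σ : GQ, (∀ x ∈ L, σ x = x) → ∀ i j, (M σ - 1) i j ∈ maximalIdeal A ^ n

theorem map_mem_maximalIdeal_pow (f : A →+* B) (hf : IsLocalHom f) {n : ℕ} {a : A}
    (ha : a ∈ maximalIdeal A ^ n) : f a ∈ maximalIdeal B ^ n := by
  have h : (maximalIdeal A ^ n).map f ≤ maximalIdeal B ^ n := by
    rw [Ideal.map_pow]
    exact Ideal.pow_right_mono (Ideal.map_le_iff_le_comap.mpr fun a ha =>
      Ideal.mem_comap.mpr (haveI := hf; map_nonunit f a ha)) n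
  exact h (Ideal.mem_map_of_mem f ha)

theorem MCont.map {M : MatRep A} (h : MCont M) (f : A →+* B) (hf : IsLocalHom f) :
    MCont (mapRep f M) := fun n => by
  obtain ⟨L, hL, h1⟩ := h n
  refine ⟨L, hL, fun σ hσ i j => ?_⟩
  have : (mapRep f M σ - 1) i j = f ((M σ - 1) i j) := by
    have e : (mapRep f M σ - 1) = RingHom.mapMatrix f (M σ - 1) := by
      rw [map_sub, map_one]; rfl
    rw [e]; rfl
  rw [this]
  exact map_mem_maximalIdeal_pow f hf (h1 σ hσ i j)

/-- The representation on `A²` given by a continuous matrix representation. -/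
def toRep (M : MatRep A) (h : MCont M) : GaloisRepAdic A where
  V := Fin 2 → A
  finrank_eq := by rw [Module.finrank_pi, Fintype.card_fin]
  ρ := (Matrix.toLinAlgEquiv' : Matrix (Fin 2) (Fin 2) A ≃ₐ[A] _).toAlgHom.toRingHom.toMonoidHom.comp M
  isAdicContinuous := fun n => by
    obtain ⟨L, hL, h1⟩ := h n
    refine ⟨L, hL, fun σ hσ v => ?_⟩
    have e : Matrix.toLinAlgEquiv' (M σ) v - v = (M σ - 1) *ᵥ v := by
      rw [Matrix.sub_mulVec, Matrix.one_mulVec, Matrix.toLinAlgEquiv'_apply]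
    change Matrix.toLinAlgEquiv' (M σ) v - v ∈ _
    rw [e, ← Finset.univ_sum_single ((M σ - 1) *ᵥ v)]
    refine Submodule.sum_mem _ fun i _ => ?_
    have hs : Pi.single (M := fun _ : Fin 2 => A) i (((M σ - 1) *ᵥ v) i) =
        ((M σ - 1) *ᵥ v) i • Pi.single i 1 := by
      rw [← Pi.single_smul, smul_eq_mul, mul_one]
    rw [hs]
    exact Submodule.smul_mem_smul
      (show ∑ j, (M σ - 1) i j * v j ∈ _ from
        Ideal.sum_mem _ fun j _ => Ideal.mul_mem_right _ _ (h1 σ hσ i j)) Submodule.mem_top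

/-- The matrices of a representation in a basis. -/
def matOf (ρ : GaloisRepAdic A) (b : Module.Basis (Fin 2) A ρ.V) : MatRep A :=
  (LinearMap.toMatrixAlgEquiv b).toAlgHom.toRingHom.toMonoidHom.comp ρ.ρ

theorem matOf_apply (ρ : GaloisRepAdic A) (b : Module.Basis (Fin 2) A ρ.V) (g : GQ) :
    matOf ρ b g = LinearMap.toMatrix b b (ρ.ρ g) := rfl

theorem mcont_matOf (ρ : GaloisRepAdic A) (b : Module.Basis (Fin 2) A ρ.V) :
    MCont (matOf ρ b) := fun n => by
  obtain ⟨L, hL, h1⟩ := ρ.isAdicContinuous n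
  refine ⟨L, hL, fun σ hσ i j => ?_⟩
  have : (matOf ρ b σ - 1) i j = b.repr (ρ.ρ σ (b j) - b j) i := by
    rw [Matrix.sub_apply, matOf_apply, LinearMap.toMatrix_apply, map_sub, Finsupp.sub_apply,
      b.repr_self, Finsupp.single_apply, Matrix.one_apply]
    simp [eq_comm]
  rw [this]
  refine Submodule.smul_induction_on (p := fun x => b.repr x i ∈ maximalIdeal A ^ n)
    (h1 σ hσ (b j)) (fun a ha w _ => ?_) (fun x y hx hy => ?_)
  · rw [map_smul, Finsupp.smul_apply, smul_eq_mul]; exact Ideal.mul_mem_right _ _ ha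
  · rw [map_add, Finsupp.add_apply]; exact Ideal.add_mem _ hx hy

theorem isEquiv_toRep_matOf (ρ : GaloisRepAdic A) (b : Module.Basis (Fin 2) A ρ.V)
    (M : MatRep A) (hM : MCont M) (h : matOf ρ b = M) : ρ.IsEquiv (toRep M hM) := by
  subst h
  refine ⟨⟨b.equivFun, fun σ x => ?_⟩⟩
  change b.equivFun (ρ.ρ σ x) = LinearMap.toMatrix b b (ρ.ρ σ) *ᵥ b.equivFun x
  simp only [Module.Basis.equivFun_apply]
  exact (LinearMap.toMatrix_mulVec_repr b b (ρ.ρ σ) x).symm

/-- The standard basis of the underlying module of `toRep M`. -/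
def stdBasis (M : MatRep A) (h : MCont M) : Module.Basis (Fin 2) A (toRep M h).V :=
  Pi.basisFun A (Fin 2)

@[simp] theorem matOf_toRep (M : MatRep A) (h : MCont M) :
    matOf (toRep M h) (stdBasis M h) = M :=
  MonoidHom.ext fun g => by
    rw [matOf_apply]
    show LinearMap.toMatrix (Pi.basisFun A (Fin 2)) (Pi.basisFun A (Fin 2))
      (Matrix.toLin' (M g)) = M g
    rw [LinearMap.toMatrix_eq_toMatrix', LinearMap.toMatrix'_toLin']

theorem trace_eq_trace_matOf (ρ : GaloisRepAdic A) (b : Module.Basis (Fin 2) A ρ.V) (g : GQ) :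
    ρ.trace g = (matOf ρ b g).trace := by
  rw [GaloisRepAdic.trace, LinearMap.trace_eq_matrix_trace A b, matOf_apply]

/-- A basis of the base change. -/
def bcBasis (f : A →+* B) (hf : IsLocalHom f) (ρ : GaloisRepAdic A)
    (b : Module.Basis (Fin 2) A ρ.V) : Module.Basis (Fin 2) B (ρ.baseChangeAlong f hf).V :=
  letI : Algebra A B := f.toAlgebra
  (Algebra.TensorProduct.basis B b)

theorem matOf_baseChangeAlong (f : A →+* B) (hf : IsLocalHom f) (ρ : GaloisRepAdic A)
    (b : Module.Basis (Fin 2) A ρ.V) :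
    matOf (ρ.baseChangeAlong f hf) (bcBasis f hf ρ b) = mapRep f (matOf ρ b) :=
  letI : Algebra A B := f.toAlgebra
  MonoidHom.ext fun g => LinearMap.toMatrix_baseChange B (ρ.ρ g) b b

theorem toRep_baseChangeAlong (f : A →+* B) (hf : IsLocalHom f) (M : MatRep A) (h : MCont M)
    (M' : MatRep B) (h' : MCont M') (he : mapRep f M = M') :
    ((toRep M h).baseChangeAlong f hf).IsEquiv (toRep M' h') :=
  isEquiv_toRep_matOf _ (bcBasis f hf _ (stdBasis M h)) M' h'
    (by rw [matOf_baseChangeAlong, matOf_toRep, he])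

theorem toRep_congr {M M' : MatRep A} (h : MCont M) (h' : MCont M') (he : M = M') :
    (toRep M h).IsEquiv (toRep M' h') := by
  subst he; exact ⟨GaloisRepAdic.Equiv.refl _⟩

/-- Conjugation by an invertible matrix. -/
def conjRep (U : (Matrix (Fin 2) (Fin 2) A)ˣ) (M : MatRep A) : MatRep A where
  toFun g := (U : Matrix (Fin 2) (Fin 2) A) * M g * (↑U⁻¹ : Matrix (Fin 2) (Fin 2) A)
  map_one' := by rw [map_one, mul_one, Units.mul_inv]
  map_mul' g h := by
    simp only [map_mul, mul_assoc, Units.inv_mul_cancel_left]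

theorem conjRep_apply (U : (Matrix (Fin 2) (Fin 2) A)ˣ) (M : MatRep A) (g : GQ) :
    conjRep U M g = (U : Matrix (Fin 2) (Fin 2) A) * M g * (↑U⁻¹ : Matrix (Fin 2) (Fin 2) A) :=
  rfl

theorem MCont.conj {M : MatRep A} (h : MCont M) (U : (Matrix (Fin 2) (Fin 2) A)ˣ) :
    MCont (conjRep U M) := fun n => by
  obtain ⟨L, hL, h1⟩ := h n
  refine ⟨L, hL, fun σ hσ i j => ?_⟩
  have : conjRep U M σ - 1 =
      (U : Matrix (Fin 2) (Fin 2) A) * (M σ - 1) * (↑U⁻¹ : Matrix (Fin 2) (Fin 2) A) := by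
    rw [conjRep_apply, mul_sub, mul_one, sub_mul, Units.mul_inv]
  rw [this, Matrix.mul_apply]
  refine Ideal.sum_mem _ fun l _ => Ideal.mul_mem_right _ _ ?_
  rw [Matrix.mul_apply]
  exact Ideal.sum_mem _ fun l' _ => Ideal.mul_mem_left _ _ (h1 σ hσ _ _)

/-- Multiplication by an invertible matrix. -/
def mulVecEquiv (U : (Matrix (Fin 2) (Fin 2) A)ˣ) : (Fin 2 → A) ≃ₗ[A] (Fin 2 → A) :=
  LinearEquiv.ofLinearMap
    (Matrix.toLin' (U : Matrix (Fin 2) (Fin 2) A)) (Matrix.toLin' (↑U⁻¹ : Matrix (Fin 2) (Fin 2) A))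
    (by rw [← Matrix.toLin'_mul, Units.mul_inv, Matrix.toLin'_one])
    (by rw [← Matrix.toLin'_mul, Units.inv_mul, Matrix.toLin'_one])

theorem toRep_conj (U : (Matrix (Fin 2) (Fin 2) A)ˣ) {M M' : MatRep A} (h : MCont M)
    (h' : MCont M') (he : conjRep U M = M') : (toRep M h).IsEquiv (toRep M' h') := by
  subst he
  refine ⟨⟨mulVecEquiv U, fun σ (x : Fin 2 → A) => ?_⟩⟩
  change (U : Matrix (Fin 2) (Fin 2) A) *ᵥ (M σ *ᵥ x) =
    ((U : Matrix (Fin 2) (Fin 2) A) * M σ * (↑U⁻¹ : Matrix (Fin 2) (Fin 2) A)) *ᵥ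
      ((U : Matrix (Fin 2) (Fin 2) A) *ᵥ x)
  simp only [Matrix.mulVec_mulVec, mul_assoc, Units.inv_mul, mul_one]

/-- Two representations with the same matrices in suitable bases are equivalent. -/
theorem trace_eq_of_isEquiv {ρ ρ' : GaloisRepAdic A} (h : ρ.IsEquiv ρ') (g : GQ) :
    ρ.trace g = ρ'.trace g := by
  obtain ⟨e⟩ := h
  have : ρ'.ρ g = e.toLinearEquiv.conj (ρ.ρ g) := by
    refine LinearMap.ext fun y => ?_
    rw [LinearEquiv.conj_apply_apply, e.map_apply, LinearEquiv.apply_symm_apply]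
  rw [GaloisRepAdic.trace, GaloisRepAdic.trace, this, LinearMap.trace_conj']

theorem trace_toRep (M : MatRep A) (h : MCont M) (g : GQ) : (toRep M h).trace g = (M g).trace := by
  rw [trace_eq_trace_matOf _ (stdBasis M h), matOf_toRep]

theorem toRep_apply (M : MatRep A) (h : MCont M) (g : GQ) (v : Fin 2 → A) :
    (toRep M h).ρ g v = M g *ᵥ v := Matrix.toLinAlgEquiv'_apply _ _

end FLTAgent.Deform

end
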