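import Fermat.Agent.Deform.Test
import Fermat.Agent.Deform.MatRep

/-!
# Traces determine deformations of absolutely irreducible representations (Carayol)

For `2 × 2` matrix representations of `Gal(ℚ̄/ℚ)` over a local `𝒪`-algebra with residue field `k`
whose reduction spans all matrices: equal traces and equal reductions imply conjugacy by a matrix
reducing to `1` (`exists_conjRep_eq`), and over a finite ring such a representation is conjugate to
one with entries in any subalgebra containing the traces (`exists_conjRep_mem`).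
`span_matOf_eq_top` supplies the spanning hypothesis from absolute irreducibility (Burnside).
-/

set_option autoImplicit false
set_option linter.unusedSectionVars false

noncomputable section

namespace FLTAgent.Deform

open IsLocalRing Matrix
open scoped TensorProduct

section Burnside

variable {k : Type} [Field k]

theorem span_range_eq_top_of_irreducible {K V G : Type} [Field K] [IsAlgClosed K] [AddCommGroup V]
    [Module K V] [FiniteDimensional K V] [Nontrivial V] [Monoid G] (f : G →* Module.End K V)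
    (hirr : ∀ W : Submodule K V, (∀ g, ∀ x ∈ W, f g x ∈ W) → W = ⊥ ∨ W = ⊤) :
    Submodule.span K (Set.range f) = ⊤ := by
  let Λ : Subalgebra K (Module.End K V) := Algebra.adjoin K (Set.range f)
  have : IsSimpleModule Λ V :=
    { toIsSimpleOrder :=
      { eq_bot_or_eq_top := fun W => by
          rcases hirr (W.restrictScalars K) (fun σ x hx =>
            show (⟨f σ, Algebra.subset_adjoin ⟨σ, rfl⟩⟩ : Λ) • x ∈ W from W.smul_mem _ hx) with h | h
          · exact .inl (Submodule.restrictScalars_eq_bot_iff (S := K) (R := Λ) (M := V) |>.1 h)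
          · exact .inr (Submodule.restrictScalars_eq_top_iff K Λ V |>.1 h) } }
  have : Module.Finite (Module.End Λ V) V := Module.Finite.of_restrictScalars_finite K _ _
  have htop : ∀ φ : Module.End K V, φ ∈ Λ := by
    intro φ
    let φ' : Module.End (Module.End Λ V) V :=
      { toFun := φ
        map_add' := map_add φ
        map_smul' := fun a v => by
          obtain ⟨c, rfl⟩ := (IsSimpleModule.algebraMap_end_bijective_of_isAlgClosed K).2 a
          simp }
    obtain ⟨r, hr⟩ := Module.Finite.toModuleEnd_moduleEnd_surjective (R := Λ) (M := V) φ'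
    have : φ = r.1 := LinearMap.ext fun v => (LinearMap.congr_fun hr v).symm
    exact this ▸ r.2
  have hmon : (Submonoid.closure (Set.range f) : Set (Module.End K V)) = Set.range f := by
    rw [← MonoidHom.coe_mrange, Submonoid.closure_eq]
  refine eq_top_iff.2 fun φ _ => ?_
  have h := (Algebra.adjoin_eq_span (R := K) (s := Set.range f)).le (htop φ)
  rwa [hmon] at h

theorem span_matOf_eq_top (ρbar : ResidualGaloisRep k) (habs : ρbar.IsAbsolutelyIrreducible)
    (b : Module.Basis (Fin 2) k ρbar.V) :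
    Submodule.span k (Set.range fun g => LinearMap.toMatrix b b (ρbar.ρ g)) = ⊤ := by
  let K := AlgebraicClosure k
  let V := (ρbar.baseChange K).V
  let f : GQ →* Module.End K V := (ρbar.baseChange K).ρ
  have : Nontrivial V := Module.nontrivial_of_finrank_eq_succ (R := K) (n := 1)
    (ρbar.baseChange K).finrank_eq
  have hspan : Submodule.span K (Set.range f) = ⊤ := span_range_eq_top_of_irreducible f habs
  let b' : Module.Basis (Fin 2) K V := Algebra.TensorProduct.basis K b
  have hK : Submodule.span K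
      (Set.range fun g => (LinearMap.toMatrix b b (ρbar.ρ g)).map (algebraMap k K)) = ⊤ := by
    have := congrArg (Submodule.map (LinearMap.toMatrix b' b').toLinearMap) hspan
    rw [Submodule.map_span, Submodule.map_top, LinearEquiv.range, ← Set.range_comp] at this
    rw [← this]
    refine congrArg (fun S => Submodule.span K (Set.range S)) (funext fun g => ?_)
    exact (LinearMap.toMatrix_baseChange K (ρbar.ρ g) b b).symm
  by_contra hne
  obtain ⟨ℓ, hℓne, hℓ⟩ := Submodule.exists_le_ker_of_lt_top _ (lt_top_iff_ne_top.2 hne)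
  let ℓK : Matrix (Fin 2) (Fin 2) K →ₗ[K] K :=
    ∑ i : Fin 2, ∑ j : Fin 2,
      algebraMap k K (ℓ (Matrix.single i j 1)) • Matrix.entryLinearMap K K i j
  have hℓeq : ∀ X : Matrix (Fin 2) (Fin 2) k, ℓK (X.map (algebraMap k K)) = algebraMap k K (ℓ X) := by
    intro X
    conv_rhs => rw [matrix_eq_sum_single X]
    simp only [ℓK, LinearMap.sum_apply, LinearMap.smul_apply, map_sum, Matrix.entryLinearMap_apply,
      Matrix.map_apply]
    refine Finset.sum_congr rfl fun i _ => Finset.sum_congr rfl fun j _ => ?_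
    rw [show Matrix.single i j (X i j) = X i j • Matrix.single i j (1 : k) by
      rw [Matrix.smul_single, smul_eq_mul, mul_one], map_smul, smul_eq_mul, smul_eq_mul, map_mul,
      mul_comm]
  have h0 : ℓK = 0 := LinearMap.ext_on_range hK fun g => by
    rw [hℓeq, LinearMap.mem_ker.1 (hℓ (Submodule.subset_span ⟨g, rfl⟩)), map_zero,
      LinearMap.zero_apply]
  refine hℓne (LinearMap.ext fun X => (algebraMap k K).injective ?_)
  rw [← hℓeq, h0]
  simp

end Burnside

variable {𝒪 : Type} [CommRing 𝒪] [IsLocalRing 𝒪]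

local notation "𝕜" => ResidueField 𝒪

variable {A : Type} [CommRing A] [IsLocalRing A] [Algebra 𝒪 A]

theorem mapRep_resHom_mul (χ : A →ₐ[𝒪] 𝕜) (X Y : Matrix (Fin 2) (Fin 2) A) :
    (X * Y).map χ = X.map χ * Y.map χ := Matrix.map_mul

theorem span_range_matRep_eq_top (χ : A →ₐ[𝒪] 𝕜) (M : MatRep A)
    (hspan : Submodule.span (ResidueField 𝒪) (Set.range (mapRep χ.toRingHom M)) = ⊤) :
    Submodule.span A (Set.range M) = ⊤ := by
  refine top_le_iff.1 (Submodule.le_of_le_smul_of_le_jacobson_bot (I := maximalIdeal A)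
    (Module.Finite.fg_top) (maximalIdeal_le_jacobson ⊥) fun X _ => ?_)
  have : ∀ Y ∈ Submodule.span (ResidueField 𝒪) (Set.range (mapRep χ.toRingHom M)),
      ∃ Z ∈ Submodule.span A (Set.range M), Z.map χ = Y := by
    intro Y hY
    induction hY using Submodule.span_induction with
    | mem y hy =>
      obtain ⟨g, rfl⟩ := hy
      exact ⟨M g, Submodule.subset_span ⟨g, rfl⟩, rfl⟩
    | zero => exact ⟨0, zero_mem _, Matrix.map_zero _ (map_zero χ)⟩
    | add y z _ _ hy hz =>
      obtain ⟨Y, hY, rfl⟩ := hy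
      obtain ⟨Z, hZ, rfl⟩ := hz
      exact ⟨Y + Z, add_mem hY hZ, Matrix.map_add _ (map_add χ) _ _⟩
    | smul c y _ hy =>
      obtain ⟨Y, hY, rfl⟩ := hy
      refine ⟨algebraMap 𝒪 A (sec c) • Y, Submodule.smul_mem _ _ hY, ?_⟩
      ext i j
      simp only [Matrix.map_apply, Matrix.smul_apply, smul_eq_mul, map_mul, resHom_algebraMap,
        residue_sec]
  obtain ⟨Z, hZ, hZX⟩ := this (X.map χ) (hspan ▸ Submodule.mem_top)
  refine Submodule.mem_sup.2 ⟨Z, hZ, X - Z, ?_, add_sub_cancel _ _⟩
  rw [matrix_eq_sum_single (X - Z)]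
  refine Submodule.sum_mem _ fun i _ => Submodule.sum_mem _ fun j _ => ?_
  rw [show Matrix.single i j ((X - Z) i j) = (X - Z) i j • Matrix.single i j (1 : A) by
    rw [Matrix.smul_single, smul_eq_mul, mul_one]]
  refine Submodule.smul_mem_smul ((resHom_eq_zero_iff χ _).1 ?_) Submodule.mem_top
  have h := congrFun (congrFun hZX i) j
  simp only [Matrix.map_apply] at h
  rw [Matrix.sub_apply, map_sub, h, sub_self]

/-- Carayol: matrix representations with the same traces and the same absolutely irreducible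
reduction are conjugate. -/
theorem exists_conjRep_eq (χ : A →ₐ[𝒪] 𝕜) (M M' : MatRep A)
    (hres : mapRep χ.toRingHom M = mapRep χ.toRingHom M')
    (hspan : Submodule.span (ResidueField 𝒪) (Set.range (mapRep χ.toRingHom M)) = ⊤)
    (htr : ∀ g, (M g).trace = (M' g).trace) :
    ∃ U : (Matrix (Fin 2) (Fin 2) A)ˣ,
      (U : Matrix (Fin 2) (Fin 2) A).map χ = 1 ∧ conjRep U M = M' := by
  classical
  have hM := span_range_matRep_eq_top χ M hspan
  have hM' := span_range_matRep_eq_top χ M' (hres ▸ hspan)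
  let S : Set (Matrix (Fin 2) (Fin 2) A × Matrix (Fin 2) (Fin 2) A) := Set.range (M.prod M')
  let Λ := Submodule.span A S
  have hex : ∀ X, ∃ X', (X, X') ∈ Λ := by
    intro X
    have hX : X ∈ Λ.map (LinearMap.fst A _ _) := by
      rw [Submodule.map_span, ← Set.range_comp]
      exact hM.ge Submodule.mem_top
    obtain ⟨p, hp, rfl⟩ := hX
    exact ⟨p.2, hp⟩
  have htrΛ : ∀ p ∈ Λ, ∀ h, (p.2 * M' h).trace = (p.1 * M h).trace := by
    intro p hp h
    induction hp using Submodule.span_induction with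
    | mem q hq =>
      obtain ⟨g, rfl⟩ := hq
      show (M' g * M' h).trace = (M g * M h).trace
      rw [← map_mul, ← map_mul, htr]
    | zero => simp
    | add q r _ _ hq hr => simp [add_mul, hq, hr]
    | smul c q _ hq => simp [hq]
  have huniq : ∀ X X' X'', (X, X') ∈ Λ → (X, X'') ∈ Λ → X' = X'' := by
    intro X X' X'' h' h''
    have h0 := sub_mem h' h''
    have hzero : ∀ Y, ((X' - X'') * Y).trace = 0 := by
      intro Y
      have hY : Y ∈ Submodule.span A (Set.range M') := hM'.ge Submodule.mem_top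
      induction hY using Submodule.span_induction with
      | mem y hy =>
        obtain ⟨h, rfl⟩ := hy
        simpa using htrΛ _ h0 h
      | zero => simp
      | add y z _ _ hy hz => simp [mul_add, hy, hz]
      | smul c y _ hy => simp [hy]
    refine Matrix.ext fun i j => sub_eq_zero.1 ?_
    simpa [Matrix.trace_mul_single] using hzero (Matrix.single j i 1)
  choose θ hθ using hex
  have θ_eq : ∀ {X X'}, (X, X') ∈ Λ → θ X = X' := fun h => huniq _ _ _ (hθ _) h
  have hmul : ∀ p ∈ Λ, ∀ q ∈ Λ, p * q ∈ Λ := by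
    intro p hp q hq
    induction hp using Submodule.span_induction with
    | mem x hx =>
      obtain ⟨g, rfl⟩ := hx
      induction hq using Submodule.span_induction with
      | mem y hy =>
        obtain ⟨h, rfl⟩ := hy
        rw [← map_mul]
        exact Submodule.subset_span ⟨g * h, rfl⟩
      | zero => rw [mul_zero]; exact zero_mem _
      | add y z _ _ hy hz => rw [mul_add]; exact add_mem hy hz
      | smul c y _ hy => rw [Algebra.mul_smul_comm]; exact Submodule.smul_mem _ _ hy
    | zero => rw [zero_mul]; exact zero_mem _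
    | add x y _ _ hx hy => rw [add_mul]; exact add_mem hx hy
    | smul c x _ hx => rw [Algebra.smul_mul_assoc]; exact Submodule.smul_mem _ _ hx
  have hres' : ∀ p ∈ Λ, p.1.map χ = p.2.map χ := by
    intro p hp
    induction hp using Submodule.span_induction with
    | mem x hx => obtain ⟨g, rfl⟩ := hx; exact DFunLike.congr_fun hres g
    | zero => rfl
    | add x y _ _ hx hy =>
      rw [Prod.fst_add, Prod.snd_add, Matrix.map_add _ (map_add χ), Matrix.map_add _ (map_add χ),
        hx, hy]
    | smul c x _ hx =>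
      ext i j
      have := congrFun (congrFun hx i) j
      simp only [Matrix.map_apply] at this
      simp only [Prod.smul_fst, Prod.smul_snd, Matrix.map_apply, Matrix.smul_apply, smul_eq_mul,
        map_mul, this]
  let U₀ : Matrix (Fin 2) (Fin 2) A := Matrix.of fun a j => θ (Matrix.single j 0 1) a 0
  have hU₀ : U₀.map χ = 1 := by
    ext a j
    have h := congrFun (congrFun (hres' _ (hθ (Matrix.single j 0 1))) a) 0
    simp only [Matrix.map_apply] at h
    show χ (θ (Matrix.single j 0 1) a 0) = _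
    rw [← h]
    by_cases ha : a = j
    · subst ha; simp
    · simp [Matrix.one_apply_ne ha, Ne.symm ha]
  have hdet : IsUnit U₀.det := by
    rw [isUnit_iff_resHom_ne_zero χ, AlgHom.map_det]
    show (U₀.map χ).det ≠ 0
    rw [hU₀, Matrix.det_one]
    exact one_ne_zero
  have hinter : ∀ X, θ X * U₀ = U₀ * X := by
    intro X
    ext a j
    have hl : θ (X * Matrix.single j 0 1) = θ X * θ (Matrix.single j 0 1) :=
      θ_eq (hmul _ (hθ X) _ (hθ _))
    have hr : θ (X * Matrix.single j 0 1) = ∑ l, X l j • θ (Matrix.single l 0 1) := by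
      refine θ_eq ?_
      have e : X * Matrix.single j 0 1 = ∑ l, X l j • Matrix.single l 0 (1 : A) := by
        ext r c
        fin_cases r <;> fin_cases c <;> fin_cases j <;>
          simp [Matrix.mul_apply, Matrix.single_apply, Matrix.sum_apply]
      have hs : ∑ l, X l j • ((Matrix.single l 0 1, θ (Matrix.single l 0 1)) :
          Matrix (Fin 2) (Fin 2) A × Matrix (Fin 2) (Fin 2) A) ∈ Λ :=
        Submodule.sum_mem _ fun l _ => Submodule.smul_mem _ _ (hθ _)
      convert hs using 1
      ext : 1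
      · rw [Prod.fst_sum]; exact e
      · rw [Prod.snd_sum]; rfl
    have h := congrFun (congrFun (hl.symm.trans hr) a) 0
    rw [Matrix.mul_apply] at h
    rw [Matrix.mul_apply, Matrix.mul_apply]
    simp only [U₀, Matrix.of_apply]
    rw [h, Matrix.sum_apply]
    exact Finset.sum_congr rfl fun l _ => by rw [Matrix.smul_apply, smul_eq_mul, mul_comm]
  refine ⟨Matrix.nonsingInvUnit U₀ hdet, hU₀, MonoidHom.ext fun g => ?_⟩
  have hg : θ (M g) = M' g := θ_eq (Submodule.subset_span ⟨g, rfl⟩)
  rw [conjRep_apply]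
  show U₀ * M g * U₀⁻¹ = M' g
  rw [← hinter, hg, mul_assoc, Matrix.mul_nonsing_inv _ hdet, mul_one]

theorem exists_pow_idempotent {R : Type} [Monoid R] [Finite R] (x : R) :
    ∃ N, 0 < N ∧ x ^ N * x ^ N = x ^ N := by
  obtain ⟨a, b, hne, h⟩ := Finite.exists_ne_map_eq_of_infinite fun n : ℕ => x ^ n
  wlog hab : a < b generalizing a b
  · exact this b a hne.symm h.symm (lt_of_le_of_ne (not_lt.1 hab) hne.symm)
  have hper : ∀ n, a ≤ n → ∀ j, x ^ (n + j * (b - a)) = x ^ n := by
    intro n hn j
    induction j with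
    | zero => simp
    | succ j ih =>
      obtain ⟨c, rfl⟩ := Nat.exists_eq_add_of_le hn
      rw [show a + c + (j + 1) * (b - a) = b + (c + j * (b - a)) by
        rw [Nat.succ_mul]; omega, pow_add, show x ^ b = x ^ a from h.symm, ← pow_add]
      rw [← ih]; congr 1; omega
  refine ⟨(a + 1) * (b - a), Nat.mul_pos (Nat.succ_pos _) (by omega), ?_⟩
  rw [← pow_add]
  exact hper _ (le_trans (Nat.le_succ a) (Nat.le_mul_of_pos_right _ (by omega))) (a + 1)

-- long elementary matrix computation
set_option maxHeartbeats 1600000 in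
/-- Carayol: over a finite ring, a deformation of an absolutely irreducible representation is
conjugate to one defined over any subalgebra containing the traces. -/
theorem exists_conjRep_mem [Finite A] (χ : A →ₐ[𝒪] 𝕜) (A₀ : Subalgebra 𝒪 A) (M : MatRep A)
    (hspan : Submodule.span (ResidueField 𝒪) (Set.range (mapRep χ.toRingHom M)) = ⊤)
    (htr : ∀ g, (M g).trace ∈ A₀) :
    ∃ U : (Matrix (Fin 2) (Fin 2) A)ˣ,
      (U : Matrix (Fin 2) (Fin 2) A).map χ = 1 ∧ ∀ g i j, conjRep U M g i j ∈ A₀ := by
  classical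
  let Λ : Submodule 𝒪 (Matrix (Fin 2) (Fin 2) A) := Submodule.span 𝒪 (Set.range M)
  have hlift : ∀ Y : Matrix (Fin 2) (Fin 2) 𝕜, ∃ X ∈ Λ, X.map χ = Y := by
    intro Y
    have hY : Y ∈ Submodule.span (ResidueField 𝒪) (Set.range (mapRep χ.toRingHom M)) :=
      hspan.ge Submodule.mem_top
    induction hY using Submodule.span_induction with
    | mem y hy =>
      obtain ⟨g, rfl⟩ := hy
      exact ⟨M g, Submodule.subset_span ⟨g, rfl⟩, rfl⟩
    | zero => exact ⟨0, zero_mem _, Matrix.map_zero _ (map_zero χ)⟩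
    | add y z _ _ hy hz =>
      obtain ⟨Y, hY, rfl⟩ := hy
      obtain ⟨Z, hZ, rfl⟩ := hz
      exact ⟨Y + Z, add_mem hY hZ, Matrix.map_add _ (map_add χ) _ _⟩
    | smul c y _ hy =>
      obtain ⟨Y, hY, rfl⟩ := hy
      refine ⟨sec c • Y, Submodule.smul_mem _ _ hY, ?_⟩
      ext i j
      simp only [Matrix.map_apply, Matrix.smul_apply]
      rw [Algebra.smul_def, map_mul, resHom_algebraMap, residue_sec]
      rfl
  have hone : (1 : Matrix (Fin 2) (Fin 2) A) ∈ Λ := Submodule.subset_span ⟨1, map_one M⟩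
  have hmul : ∀ p ∈ Λ, ∀ q ∈ Λ, p * q ∈ Λ := by
    intro p hp q hq
    induction hp using Submodule.span_induction with
    | mem x hx =>
      obtain ⟨g, rfl⟩ := hx
      induction hq using Submodule.span_induction with
      | mem y hy =>
        obtain ⟨h, rfl⟩ := hy
        exact Submodule.subset_span ⟨g * h, map_mul M g h⟩
      | zero => rw [mul_zero]; exact zero_mem _
      | add y z _ _ hy hz => rw [mul_add]; exact add_mem hy hz
      | smul c y _ hy => rw [Algebra.mul_smul_comm]; exact Submodule.smul_mem _ _ hy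
    | zero => rw [zero_mul]; exact zero_mem _
    | add x y _ _ hx hy => rw [add_mul]; exact add_mem hx hy
    | smul c x _ hx => rw [Algebra.smul_mul_assoc]; exact Submodule.smul_mem _ _ hx
  have htrΛ : ∀ X ∈ Λ, X.trace ∈ A₀ := by
    intro X hX
    induction hX using Submodule.span_induction with
    | mem x hx => obtain ⟨g, rfl⟩ := hx; exact htr g
    | zero => rw [Matrix.trace_zero]; exact zero_mem _
    | add x y _ _ hx hy => rw [Matrix.trace_add]; exact add_mem hx hy
    | smul c x _ hx => rw [Matrix.trace_smul]; exact A₀.smul_mem hx c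
  obtain ⟨x₀, hx₀, hx₀r⟩ := hlift (Matrix.single 0 0 1)
  obtain ⟨N, hN, he⟩ := exists_pow_idempotent x₀
  have hpow : ∀ n : ℕ, x₀ ^ n ∈ Λ := fun n => by
    induction n with
    | zero => rw [pow_zero]; exact hone
    | succ n ih => rw [pow_succ]; exact hmul _ ih _ hx₀
  let Φ : Matrix (Fin 2) (Fin 2) A →+* Matrix (Fin 2) (Fin 2) 𝕜 := χ.toRingHom.mapMatrix
  set e := x₀ ^ N with he'
  have her : Φ e = Matrix.single 0 0 1 := by
    rw [he', map_pow]
    obtain ⟨n, rfl⟩ : ∃ n, N = n + 1 := ⟨N - 1, by omega⟩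
    rw [show Φ x₀ = Matrix.single 0 0 1 from hx₀r]
    clear * - n
    induction n with
    | zero => rw [zero_add, pow_one]
    | succ n ih => rw [pow_succ, ih, Matrix.single_mul_single_same, one_mul]
  have heΛ : e ∈ Λ := hpow N
  have hfΛ : 1 - e ∈ Λ := sub_mem hone heΛ
  obtain ⟨y₀, hy₀, hy₀r⟩ := hlift (Matrix.single 1 0 1)
  obtain ⟨z₀, hz₀, hz₀r⟩ := hlift (Matrix.single 0 1 1)
  set y := (1 - e) * y₀ * e with hy'
  set z := e * z₀ * (1 - e) with hz'
  have hyΛ : y ∈ Λ := hmul _ (hmul _ hfΛ _ hy₀) _ heΛ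
  have hzΛ : z ∈ Λ := hmul _ (hmul _ heΛ _ hz₀) _ hfΛ
  have hef : e * (1 - e) = 0 := by rw [mul_sub, mul_one, he, sub_self]
  have hfe : (1 - e) * e = 0 := by rw [sub_mul, one_mul, he, sub_self]
  have hey : e * y = 0 := by rw [hy', ← mul_assoc, ← mul_assoc, hef, zero_mul, zero_mul]
  have hye : y * e = y := by rw [hy', mul_assoc, he]
  have hyy : y * y = 0 := by
    nth_rewrite 1 [← hye]
    rw [mul_assoc, hey, mul_zero]
  have hez : e * z = z := by rw [hz', ← mul_assoc, ← mul_assoc, he]
  have hze : z * e = 0 := by rw [hz', mul_assoc, hfe, mul_zero]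
  have hyr : Φ y = Matrix.single 1 0 1 := by
    rw [hy', map_mul, map_mul, map_sub, map_one, her, show Φ y₀ = _ from hy₀r]
    ext i j
    fin_cases i <;> fin_cases j <;>
      simp [Matrix.mul_apply, Matrix.single_apply, Matrix.one_apply, Fin.sum_univ_two]
  have hzr : Φ z = Matrix.single 0 1 1 := by
    rw [hz', map_mul, map_mul, map_sub, map_one, her, show Φ z₀ = _ from hz₀r]
    ext i j
    fin_cases i <;> fin_cases j <;>
      simp [Matrix.mul_apply, Matrix.single_apply, Matrix.one_apply]
  let U₀ : Matrix (Fin 2) (Fin 2) A := Matrix.of ![![e 0 0, y 0 0], ![e 1 0, y 1 0]]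
  have hU₀ : Φ U₀ = 1 := by
    have e1 := congrFun (congrFun her 0) 0
    have e2 := congrFun (congrFun her 1) 0
    have e3 := congrFun (congrFun hyr 0) 0
    have e4 := congrFun (congrFun hyr 1) 0
    simp [Φ] at e1 e2 e3 e4
    ext i j
    fin_cases i <;> fin_cases j <;> simp [Φ, U₀, e1, e2, e3, e4]
  have hdet : IsUnit U₀.det := by
    rw [isUnit_iff_resHom_ne_zero χ, AlgHom.map_det]
    show (Φ U₀).det ≠ 0
    rw [hU₀, Matrix.det_one]
    exact one_ne_zero
  let U : (Matrix (Fin 2) (Fin 2) A)ˣ := Matrix.nonsingInvUnit U₀ hdet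
  let c : Matrix (Fin 2) (Fin 2) A → Matrix (Fin 2) (Fin 2) A :=
    fun X => (↑U⁻¹ : Matrix (Fin 2) (Fin 2) A) * X * U₀
  have hcE : c e = Matrix.single 0 0 1 := by
    have : e * U₀ = U₀ * Matrix.single 0 0 1 := by
      have a1 := congrFun (congrFun he 0) 0
      have a2 := congrFun (congrFun he 1) 0
      have a3 := congrFun (congrFun hey 0) 0
      have a4 := congrFun (congrFun hey 1) 0
      simp [Matrix.mul_apply, Fin.sum_univ_two] at a1 a2 a3 a4
      ext i j
      fin_cases i <;> fin_cases j <;>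
        simp [U₀, Matrix.mul_apply, Fin.sum_univ_two, Matrix.single_apply, a1, a2, a3, a4]
    show (↑U⁻¹ : Matrix (Fin 2) (Fin 2) A) * e * U₀ = _
    rw [mul_assoc, this, ← mul_assoc]
    show (↑U⁻¹ : Matrix (Fin 2) (Fin 2) A) * (↑U : Matrix (Fin 2) (Fin 2) A) * _ = _
    rw [Units.inv_mul, one_mul]
  have hcY : c y = Matrix.single 1 0 1 := by
    have : y * U₀ = U₀ * Matrix.single 1 0 1 := by
      have a1 := congrFun (congrFun hye 0) 0
      have a2 := congrFun (congrFun hye 1) 0
      have a3 := congrFun (congrFun hyy 0) 0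
      have a4 := congrFun (congrFun hyy 1) 0
      simp [Matrix.mul_apply, Fin.sum_univ_two] at a1 a2 a3 a4
      ext i j
      fin_cases i <;> fin_cases j <;>
        simp [U₀, Matrix.mul_apply, Fin.sum_univ_two, Matrix.single_apply, a1, a2, a3, a4]
    show (↑U⁻¹ : Matrix (Fin 2) (Fin 2) A) * y * U₀ = _
    rw [mul_assoc, this, ← mul_assoc]
    show (↑U⁻¹ : Matrix (Fin 2) (Fin 2) A) * (↑U : Matrix (Fin 2) (Fin 2) A) * _ = _
    rw [Units.inv_mul, one_mul]
  have hcmul : ∀ X Y, c (X * Y) = c X * c Y := fun X Y => by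
    show (↑U⁻¹ : Matrix (Fin 2) (Fin 2) A) * (X * Y) * (↑U : Matrix (Fin 2) (Fin 2) A) =
      (↑U⁻¹ : Matrix (Fin 2) (Fin 2) A) * X * (↑U : Matrix (Fin 2) (Fin 2) A) *
        ((↑U⁻¹ : Matrix (Fin 2) (Fin 2) A) * Y * (↑U : Matrix (Fin 2) (Fin 2) A))
    simp only [mul_assoc, Units.mul_inv_cancel_left]
  have hctr : ∀ X, (c X).trace = X.trace := fun X => Matrix.trace_units_conj' U X
  have hpair : ∀ X ∈ Λ, ∀ Y ∈ Λ, (c X * c Y).trace ∈ A₀ := fun X hX Y hY => by
    rw [← hcmul, hctr]; exact htrΛ _ (hmul _ hX _ hY)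
  -- the shape of `c z`
  have hz1 : Matrix.single 0 0 1 * c z = c z := by rw [← hcE, ← hcmul, hez]
  have hz2 : c z * Matrix.single 0 0 1 = 0 := by
    rw [← hcE, ← hcmul, hze]; simp [c]
  have z00 : c z 0 0 = 0 := by
    simpa [Matrix.mul_apply, Matrix.single_apply, Fin.sum_univ_two] using congrFun (congrFun hz2 0) 0
  have z10 : c z 1 0 = 0 := by
    simpa [Matrix.mul_apply, Matrix.single_apply, Fin.sum_univ_two] using congrFun (congrFun hz2 1) 0
  have z11 : c z 1 1 = 0 := by
    simpa [Matrix.mul_apply, Matrix.single_apply, Fin.sum_univ_two, eq_comm]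
      using congrFun (congrFun hz1 1) 1
  have hb : c z 0 1 ∈ A₀ := by
    have := hpair z hzΛ y hyΛ
    rw [hcY] at this
    simpa [Matrix.trace_fin_two, Matrix.mul_apply, Matrix.single_apply, Fin.sum_univ_two, z00, z11]
      using this
  have hbr : χ (c z 0 1) = 1 := by
    have hU1 : Φ (↑U⁻¹ : Matrix (Fin 2) (Fin 2) A) = 1 := by
      have h1 : (↑U⁻¹ : Matrix (Fin 2) (Fin 2) A) * U₀ = 1 := U.inv_mul
      have := congrArg Φ h1
      rwa [map_mul, hU₀, mul_one, map_one] at this
    have hcz : Φ (c z) = Matrix.single 0 1 1 := by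
      simp only [c, map_mul, hU1, hU₀, hzr, one_mul, mul_one]
    simpa [Φ] using congrFun (congrFun hcz 0) 1
  obtain ⟨b', hb', hbb⟩ : ∃ b' ∈ A₀, c z 0 1 * b' = 1 := by
    let χ₀ : A₀ →ₐ[𝒪] 𝕜 := χ.comp A₀.val
    have hnil : ∀ a : A₀, χ₀ a = 0 → IsNilpotent a := fun a ha => by
      obtain ⟨n, hn⟩ := isNilpotent_of_resHom_eq_zero χ (a : A) ha
      exact ⟨n, Subtype.ext (by simpa using hn)⟩
    obtain ⟨u, hu⟩ := isUnit_of_resHom_ne_zero χ₀ hnil ⟨_, hb⟩
      (show χ (c z 0 1) ≠ 0 by rw [hbr]; exact one_ne_zero)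
    refine ⟨((↑u⁻¹ : A₀) : A), (↑u⁻¹ : A₀).2, ?_⟩
    have h1 := congrArg (Subtype.val : A₀ → A) u.mul_inv
    rw [hu] at h1
    simpa using h1
  refine ⟨U⁻¹, ?_, fun g i j => ?_⟩
  · have h1 : (↑U⁻¹ : Matrix (Fin 2) (Fin 2) A) * U₀ = 1 := U.inv_mul
    have := congrArg Φ h1
    rw [map_mul, hU₀, mul_one, map_one] at this
    exact this
  · have hg : M g ∈ Λ := Submodule.subset_span ⟨g, rfl⟩
    rw [conjRep_apply, inv_inv]
    show c (M g) i j ∈ A₀
    have h00 : c (M g) 0 0 ∈ A₀ := by
      have := hpair _ hg _ heΛ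
      rw [hcE] at this
      simpa [Matrix.trace_fin_two, Matrix.mul_apply, Matrix.single_apply, Fin.sum_univ_two] using this
    have h01 : c (M g) 0 1 ∈ A₀ := by
      have := hpair _ hg _ hyΛ
      rw [hcY] at this
      simpa [Matrix.trace_fin_two, Matrix.mul_apply, Matrix.single_apply, Fin.sum_univ_two] using this
    have h10 : c (M g) 1 0 ∈ A₀ := by
      have := mul_mem (hpair _ hg _ hzΛ) hb'
      simpa [Matrix.trace_fin_two, Matrix.mul_apply, Fin.sum_univ_two, z00, z10, z11, mul_assoc,
        hbb] using this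
    have h11 : c (M g) 1 1 ∈ A₀ := by
      have h := sub_mem (htrΛ _ hg) h00
      rw [← hctr, Matrix.trace_fin_two, add_sub_cancel_left] at h
      exact h
    fin_cases i <;> fin_cases j <;> assumption

end FLTAgent.Deform

end
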