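import Fermat.Agent.Deform.Tangent

/-!
# Least deformations of bounded level

A deformation has level `n` when the `(n+1)`-st power of its maximal ideal is zero.
Deformations of level `n` have bounded cardinality (`exists_card_bound`, from the uniform bound on
generators in `Tangent`), so a least one exists (`exists_isLeast`: every other deformation of level
`n` is a quotient of it), and a least one of level `n` lifts to a least one of level `n + 1`
(`exists_succ`), conjugating by a matrix reducing to `1` to make the two compatible.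
-/

set_option autoImplicit false
set_option linter.unusedSectionVars false

noncomputable section

namespace FLTAgent.Deform

open IsLocalRing Matrix

variable {𝒪 : Type} [CommRing 𝒪] [IsLocalRing 𝒪] [IsNoetherianRing 𝒪]
  [Finite (ResidueField 𝒪)] {σ : Type} [Finite σ]

theorem aeval_surjective_of_generators {A : Type} [CommRing A] [IsLocalRing A] [Algebra 𝒪 A]
    [Finite A] (χ : A →ₐ[𝒪] ResidueField 𝒪) (t : σ → A)
    (h : maximalIdeal A = (maximalIdeal 𝒪).map (algebraMap 𝒪 A) ⊔ Ideal.span (Set.range t)) :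
    Function.Surjective (MvPolynomial.aeval (R := 𝒪) t) := by
  set f : MvPolynomial σ 𝒪 →ₐ[𝒪] A := MvPolynomial.aeval t with hf
  set 𝔞 : Ideal (MvPolynomial σ 𝒪) :=
    (maximalIdeal 𝒪).map MvPolynomial.C ⊔ Ideal.span (Set.range MvPolynomial.X) with h𝔞
  have hm : 𝔞.map f.toRingHom = maximalIdeal A := by
    rw [h, h𝔞, Ideal.map_sup, Ideal.map_map, Ideal.map_span, ← Set.range_comp]
    congr 2
    · exact RingHom.ext fun a => MvPolynomial.aeval_C t a
    · congr 1
      exact funext fun i => MvPolynomial.aeval_X t i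
  have step : ∀ n : ℕ, ∀ a : A, ∃ p, a - f p ∈ maximalIdeal A ^ n := by
    intro n
    induction n with
    | zero => exact fun a => ⟨0, by rw [pow_zero, Ideal.one_eq_top]; exact Submodule.mem_top⟩
    | succ n ih =>
      have hy : ∀ y ∈ maximalIdeal A ^ n, ∃ p, y - f p ∈ maximalIdeal A ^ (n + 1) := by
        intro y hy
        rw [← hm, ← Ideal.map_pow] at hy
        induction hy using Submodule.span_induction with
        | mem z hz =>
          obtain ⟨q, -, rfl⟩ := hz
          exact ⟨q, by show f q - f q ∈ _; rw [sub_self]; exact zero_mem _⟩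
        | zero => exact ⟨0, by rw [map_zero, sub_zero]; exact zero_mem _⟩
        | add y z _ _ hy hz =>
          obtain ⟨p, hp⟩ := hy
          obtain ⟨q, hq⟩ := hz
          exact ⟨p + q, by rw [map_add, add_sub_add_comm]; exact add_mem hp hq⟩
        | smul a y hy' hy =>
          obtain ⟨p, hp⟩ := hy
          refine ⟨MvPolynomial.C (sec (χ a)) * p, ?_⟩
          have hy'' : y ∈ maximalIdeal A ^ n := by
            rw [← hm, ← Ideal.map_pow]; exact hy'
          have h1 := Ideal.mul_mem_mul (sub_algebraMap_sec_mem χ a) hy''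
          rw [← pow_succ'] at h1
          have h2 := Ideal.mul_mem_left _ (algebraMap 𝒪 A (sec (χ a))) hp
          have := add_mem h1 h2
          rw [map_mul, hf, MvPolynomial.aeval_C, smul_eq_mul]
          convert this using 1
          ring
      intro a
      obtain ⟨p, hp⟩ := ih a
      obtain ⟨q, hq⟩ := hy _ hp
      exact ⟨p + q, by rwa [map_add, ← sub_sub]⟩
  intro a
  obtain ⟨N, hN⟩ := exists_maximalIdeal_pow_eq_bot (A := A)
  obtain ⟨p, hp⟩ := step N a
  rw [hN, Submodule.mem_bot, sub_eq_zero] at hp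
  exact ⟨p, hp.symm⟩

/-- Deformations of level `n`: their maximal ideal has `(n+1)`-st power zero. -/
def Defm.HasLevel {c : Ctx 𝒪} (X : Defm c) (n : ℕ) : Prop :=
  maximalIdeal X.A ^ (n + 1) = ⊥

theorem exists_card_bound (c : Ctx 𝒪) (n : ℕ) :
    ∃ C : ℕ, ∀ X : Defm c, X.HasLevel n → Nat.card X.A ≤ C := by
  obtain ⟨σ, _, T, hT, hgen⟩ := exists_cotangent_generators c
  let η : MvPolynomial σ 𝒪 →ₐ[𝒪] ResidueField 𝒪 := MvPolynomial.aeval fun _ => 0
  have hfin : Finite (MvPolynomial σ 𝒪 ⧸ RingHom.ker η.toRingHom) :=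
    Finite.of_injective (RingHom.kerLift η.toRingHom) (RingHom.kerLift_injective _)
  have hfin' : Finite (MvPolynomial σ 𝒪 ⧸ RingHom.ker η.toRingHom ^ (n + 1)) :=
    Ideal.finite_quotient_pow (IsNoetherian.noetherian _) _
  refine ⟨Nat.card (MvPolynomial σ 𝒪 ⧸ RingHom.ker η.toRingHom ^ (n + 1)), fun X hX => ?_⟩
  let f : MvPolynomial σ 𝒪 →ₐ[𝒪] X.A := MvPolynomial.aeval fun i => X.chi (T i)
  have hsurj : Function.Surjective f :=
    aeval_surjective_of_generators X.res _ (hgen X)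
  have hη : X.res.comp f = η := MvPolynomial.algHom_ext fun i => by
    simp only [AlgHom.comp_apply, f, η, MvPolynomial.aeval_X]
    rw [← AlgHom.comp_apply, X.res_chi]
    exact hT i
  have hker : RingHom.ker η.toRingHom ^ (n + 1) ≤ RingHom.ker f.toRingHom := by
    refine (Ideal.map_eq_bot_iff_le_ker _).1 ?_
    rw [Ideal.map_pow, eq_bot_iff, ← hX]
    refine Ideal.pow_right_mono (Ideal.map_le_iff_le_comap.2 fun q hq => ?_) _
    rw [Ideal.mem_comap, ← resHom_eq_zero_iff X.res]
    show X.res (f q) = 0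
    rw [← AlgHom.comp_apply, hη]
    exact hq
  refine Nat.card_le_card_of_surjective
    (Ideal.Quotient.lift _ f.toRingHom fun q hq => hker hq) fun a => ?_
  obtain ⟨q, rfl⟩ := hsurj a
  exact ⟨Ideal.Quotient.mk _ q, rfl⟩

theorem residual_gen (c : Ctx 𝒪) : Function.Surjective (traceHom (𝒪 := 𝒪) c.Mbar) := fun x => by
  refine ⟨algebraMap 𝒪 (MvPolynomial GQ 𝒪) (sec x), ?_⟩
  rw [AlgHom.commutes, ResidueField.algebraMap_eq]
  exact residue_sec x

theorem residual_ofType (c : Ctx 𝒪) : c.𝒟 (toRep c.Mbar c.cont_Mbar) :=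
  c.h𝒟.of_isEquiv (isArtinianTestAlgebra_of_finite (AlgHom.id 𝒪 (ResidueField 𝒪)))
    (isEquiv_toRep_matOf (GaloisRepAdic.ofResidualGaloisRep c.ρbar) c.basis c.Mbar c.cont_Mbar
      (by rw [Ctx.Mbar])) c.hbar

theorem residual_norm (c : Ctx 𝒪) :
    mapRep (AlgHom.id 𝒪 (ResidueField 𝒪)).toRingHom c.Mbar = c.Mbar :=
  MonoidHom.ext fun _ => Matrix.map_id _

/-- The residual deformation. -/
def residualDefm (c : Ctx 𝒪) : Defm c where
  A := ResidueField 𝒪
  res := AlgHom.id 𝒪 _
  M := c.Mbar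
  cont := c.cont_Mbar
  norm := residual_norm c
  ofType := residual_ofType c
  gen := residual_gen c

theorem residualDefm_hasLevel (c : Ctx 𝒪) (n : ℕ) : (residualDefm c).HasLevel n := by
  unfold Defm.HasLevel
  have : maximalIdeal (residualDefm c).A = ⊥ :=
    (ker_resHom (residualDefm c).res).symm.trans
      ((RingHom.injective_iff_ker_eq_bot _).1 fun a b h => h)
  rw [this, ← Ideal.zero_eq_bot, zero_pow (Nat.succ_ne_zero n)]

/-- A least deformation of level `n`. -/
def Defm.IsLeast {c : Ctx 𝒪} (X : Defm c) (n : ℕ) : Prop :=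
  X.HasLevel n ∧ ∀ Y : Defm c, Y.HasLevel n → ∀ p, X.chi p = 0 → Y.chi p = 0

/-- A least deformation of each level exists. -/
theorem exists_isLeast (c : Ctx 𝒪) (n : ℕ) : ∃ X : Defm c, X.IsLeast n := by
  classical
  obtain ⟨C, hC⟩ := exists_card_bound c n
  set S : Set ℕ := {m | ∃ X : Defm c, X.HasLevel n ∧ Nat.card X.A = m} with hS
  have hne : S.Nonempty := ⟨_, residualDefm c, residualDefm_hasLevel c n, rfl⟩
  have hbdd : BddAbove S := ⟨C, fun m ⟨X, hX, hm⟩ => hm ▸ hC X hX⟩
  obtain ⟨X, hX, hXm⟩ := Nat.sSup_mem hne hbdd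
  refine ⟨X, hX, fun Y hY p hp => ?_⟩
  obtain ⟨Z, hZ⟩ := X.exists_inf Y
  obtain ⟨ψ, hψ, hψs⟩ := Z.exists_hom X fun q hq => ((hZ q).1 hq).1
  obtain ⟨ψ', hψ', -⟩ := Z.exists_hom Y fun q hq => ((hZ q).1 hq).2
  have hZl : Z.HasLevel n := by
    unfold Defm.HasLevel
    rw [eq_bot_iff]
    intro z hz
    obtain ⟨q, rfl⟩ := Z.gen z
    have h1 := map_mem_maximalIdeal_pow ψ.toRingHom (isLocalHom_of_resHom Z.res X.res ψ) hz
    have h2 := map_mem_maximalIdeal_pow ψ'.toRingHom (isLocalHom_of_resHom Z.res Y.res ψ') hz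
    rw [show ψ.toRingHom (traceHom Z.M q) = X.chi q from hψ q, hX, Submodule.mem_bot] at h1
    rw [show ψ'.toRingHom (traceHom Z.M q) = Y.chi q from hψ' q, hY, Submodule.mem_bot] at h2
    rw [Submodule.mem_bot]
    exact (hZ q).2 ⟨h1, h2⟩
  have hle : Nat.card Z.A ≤ Nat.card X.A := by
    rw [hXm]
    exact le_csSup hbdd ⟨Z, hZl, rfl⟩
  have hinj : Function.Injective ψ :=
    (Function.Surjective.bijective_of_nat_card_le hψs hle).1
  have : Z.chi p = 0 := hinj (by rw [hψ, hp, map_zero])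
  exact ((hZ p).1 this).2

/-- Conjugating a deformation by a matrix reducing to the identity. -/
def Defm.conj {c : Ctx 𝒪} (X : Defm c) (U : (Matrix (Fin 2) (Fin 2) X.A)ˣ)
    (hU : (U : Matrix (Fin 2) (Fin 2) X.A).map X.res = 1) : Defm c where
  A := X.A
  res := X.res
  M := conjRep U X.M
  cont := X.cont.conj U
  norm := (mapRep_resHom_conjRep X.res U hU X.M).trans X.norm
  ofType := c.h𝒟.of_isEquiv (isArtinianTestAlgebra_of_finite X.res)
    (toRep_conj U X.cont _ rfl) X.ofType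
  gen := by rw [traceHom_conjRep]; exact X.gen

/-- A compatible system: the next level. -/
theorem exists_succ {c : Ctx 𝒪} (X : Defm c) (n : ℕ) (hX : X.IsLeast n) :
    ∃ (Y : Defm c) (ψ : Y.A →ₐ[𝒪] X.A), Y.IsLeast (n + 1) ∧ mapRep ψ.toRingHom Y.M = X.M ∧
      (∀ p, ψ (Y.chi p) = X.chi p) ∧ Function.Surjective ψ ∧
      ∀ a, ψ a = 0 → a ∈ maximalIdeal Y.A ^ (n + 1) := by
  classical
  obtain ⟨Y, hY⟩ := exists_isLeast c (n + 1)
  have hX' : X.HasLevel (n + 1) := by
    unfold Defm.HasLevel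
    rw [pow_succ, show maximalIdeal X.A ^ (n + 1) = ⊥ from hX.1, Submodule.bot_mul]
  obtain ⟨ψ, hψ, hψs⟩ := Y.exists_hom X (hY.2 X hX')
  have hloc : IsLocalHom (ψ : Y.A →+* X.A) := isLocalHom_of_resHom Y.res X.res ψ
  have hres : mapRep X.res.toRingHom (mapRep ψ.toRingHom Y.M) = mapRep X.res.toRingHom X.M := by
    rw [mapRep_mapRep, show X.res.toRingHom.comp ψ.toRingHom = Y.res.toRingHom from
      congrArg AlgHom.toRingHom (resHom_comp Y.res X.res ψ), Y.norm, X.norm]
  obtain ⟨U, hU, hUM⟩ := exists_conjRep_eq X.res (mapRep ψ.toRingHom Y.M) X.M hres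
    (by rw [hres, X.norm]; exact c.span_Mbar)
    fun g => by
      rw [trace_mapRep]
      have := hψ (MvPolynomial.X g)
      rwa [Defm.chi, Defm.chi, traceHom_X, traceHom_X] at this
  choose f hf using hψs
  let V₀ : Matrix (Fin 2) (Fin 2) Y.A := (U : Matrix (Fin 2) (Fin 2) X.A).map f
  have hV : V₀.map ψ = (U : Matrix (Fin 2) (Fin 2) X.A) := by
    ext i j; simp [V₀, hf]
  have hVres : V₀.map Y.res = 1 := by
    rw [← hU, ← hV, Matrix.map_map, ← resHom_comp Y.res X.res ψ]
    rfl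
  have hdet : IsUnit V₀.det := by
    rw [isUnit_iff_resHom_ne_zero Y.res, AlgHom.map_det]
    show (V₀.map Y.res).det ≠ 0
    rw [hVres, Matrix.det_one]
    exact one_ne_zero
  let V : (Matrix (Fin 2) (Fin 2) Y.A)ˣ := Matrix.nonsingInvUnit V₀ hdet
  have hVU : Units.map (ψ.toRingHom.mapMatrix : Matrix (Fin 2) (Fin 2) Y.A →+* _).toMonoidHom V = U :=
    Units.ext hV
  have hchi : ∀ p, (Y.conj V hVres).chi p = Y.chi p := fun p =>
    AlgHom.congr_fun (traceHom_conjRep V Y.M) p
  refine ⟨Y.conj V hVres, ψ, ⟨hY.1, fun Z hZ p hp => hY.2 Z hZ p ((hchi p).symm.trans hp)⟩,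
    ?_, fun p => (congrArg ψ (hchi p)).trans (hψ p), fun x => ⟨f x, hf x⟩, ?_⟩
  · show mapRep ψ.toRingHom (conjRep V Y.M) = X.M
    rw [mapRep_conjRep, hVU, hUM]
  · intro a ha
    by_contra hna
    set J := maximalIdeal Y.A ^ (n + 1) with hJ
    have hJtop : J ≠ ⊤ := fun h => hna (h.symm.le (Submodule.mem_top))
    have : Nontrivial (Y.A ⧸ J) := Ideal.Quotient.nontrivial_iff.2 hJtop
    have : IsLocalRing (Y.A ⧸ J) :=
      IsLocalRing.of_surjective' (Ideal.Quotient.mk J) Ideal.Quotient.mk_surjective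
    let resJ : Y.A ⧸ J →ₐ[𝒪] ResidueField 𝒪 := Ideal.Quotient.liftₐ J Y.res fun b hb =>
      (resHom_eq_zero_iff Y.res b).2 (Ideal.pow_le_self (Nat.succ_ne_zero n) hb)
    have : Finite (Y.A ⧸ J) := Finite.of_surjective _ Ideal.Quotient.mk_surjective
    let Z : Defm c := Y.map resJ (Ideal.Quotient.mkₐ 𝒪 J) (Ideal.Quotient.mkₐ_surjective 𝒪 J)
    have hZ : Z.HasLevel n := by
      unfold Defm.HasLevel
      rw [eq_bot_iff]
      have hle : maximalIdeal (Y.A ⧸ J) ≤ (maximalIdeal Y.A).map (Ideal.Quotient.mk J) := by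
        intro y hy
        obtain ⟨b, rfl⟩ := Ideal.Quotient.mk_surjective y
        refine Ideal.mem_map_of_mem _ ?_
        rw [← resHom_eq_zero_iff Y.res]
        exact (resHom_eq_zero_iff resJ _).2 hy
      show maximalIdeal (Y.A ⧸ J) ^ (n + 1) ≤ ⊥
      refine (Ideal.pow_right_mono hle _).trans ?_
      rw [← Ideal.map_pow, ← hJ, Ideal.map_quotient_self]
    obtain ⟨p, rfl⟩ := Y.gen a
    apply hna
    have hp : X.chi p = 0 := (hψ p).symm.trans ha
    have := hX.2 Z hZ p hp
    rw [show Z.chi p = Ideal.Quotient.mkₐ 𝒪 J (Y.chi p) from Defm.chi_map _ _ _ _ p] at this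
    exact Ideal.Quotient.eq_zero_iff_mem.1 this

end FLTAgent.Deform

end
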