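import Fermat.Agent.Deform.Levels

/-!
# The limit of a tower of finite local algebras with boundedly many generators

For finite local `𝒪`-algebras `A n` with `m ^ (n+1) = 0`, transition maps `ψ n` with kernel in
`m ^ (n+1)` and compatible generators of the maximal ideals indexed by a fixed finite type,
`nonempty_towerLimit` gives a complete Noetherian local `𝒪`-algebra surjecting compatibly onto all
`A n` with kernels the powers of its maximal ideal: the image of a power series ring over `𝒪` in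
their product.  `TowerLimit.exists_lift` and `TowerLimit.ext_of_forall`: its elements are the
compatible families.
-/

set_option autoImplicit false
set_option linter.unusedSectionVars false

noncomputable section

namespace FLTAgent.Deform

open IsLocalRing

variable {𝒪 : Type} [CommRing 𝒪] [IsLocalRing 𝒪] [IsNoetherianRing 𝒪]
  [IsAdicComplete (maximalIdeal 𝒪) 𝒪] [Finite (ResidueField 𝒪)]

/-- A complete Noetherian local ring with surjections onto a tower, with kernels the powers of the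
maximal ideal. -/
structure TowerLimit (A : ℕ → Type) [∀ n, CommRing (A n)] [∀ n, Algebra 𝒪 (A n)]
    (ψ : ∀ n, A (n + 1) →ₐ[𝒪] A n) : Type 1 where
  R : Type
  [instCommRing : CommRing R]
  [instLocal : IsLocalRing R]
  [instNoeth : IsNoetherianRing R]
  [instComplete : IsAdicComplete (maximalIdeal R) R]
  [instAlgebra : Algebra 𝒪 R]
  res : R →ₐ[𝒪] ResidueField 𝒪
  π : ∀ n, R →ₐ[𝒪] A n
  π_surjective : ∀ n, Function.Surjective (π n)
  π_compat : ∀ n r, ψ n (π (n + 1) r) = π n r
  π_eq_zero_iff : ∀ n r, π n r = 0 ↔ r ∈ maximalIdeal R ^ (n + 1)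

attribute [instance] TowerLimit.instCommRing TowerLimit.instLocal TowerLimit.instNoeth
  TowerLimit.instComplete TowerLimit.instAlgebra

variable {A : ℕ → Type} [∀ n, CommRing (A n)] [∀ n, IsLocalRing (A n)] [∀ n, Algebra 𝒪 (A n)]
  [∀ n, Finite (A n)] {σ : Type} [Finite σ]

/-- The limit of the tower exists. -/
theorem nonempty_towerLimit (ψ : ∀ n, A (n + 1) →ₐ[𝒪] A n)
    (res : ∀ n, A n →ₐ[𝒪] ResidueField 𝒪)
    (hlev : ∀ n, maximalIdeal (A n) ^ (n + 1) = ⊥)
    (hker : ∀ n a, ψ n a = 0 → a ∈ maximalIdeal (A (n + 1)) ^ (n + 1))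
    (t : ∀ n, σ → A n) (ht : ∀ n i, ψ n (t (n + 1) i) = t n i)
    (hgen : ∀ n, maximalIdeal (A n) =
      (maximalIdeal 𝒪).map (algebraMap 𝒪 (A n)) ⊔ Ideal.span (Set.range (t n))) :
    Nonempty (TowerLimit A ψ) := by
  classical
  have hk : ∀ n, MvPolynomial.idealOfVars σ 𝒪 ^ (n + 1) ≤
      RingHom.ker (MvPolynomial.aeval (R := 𝒪) (t n)) := by
    intro n
    refine (Ideal.map_eq_bot_iff_le_ker _).1 ?_
    rw [Ideal.map_pow, eq_bot_iff, ← hlev n]
    refine Ideal.pow_right_mono ?_ _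
    rw [MvPolynomial.idealOfVars, Ideal.map_span, Ideal.span_le, hgen n]
    rintro _ ⟨_, ⟨i, rfl⟩, rfl⟩
    rw [MvPolynomial.aeval_X]
    exact Submodule.mem_sup_right (Ideal.subset_span ⟨i, rfl⟩)
  let ev : ∀ n, MvPowerSeries σ 𝒪 →ₐ[𝒪] A n := fun n => evalTrunc (n + 1) (t n) (hk n)
  have hev : ∀ n, Function.Surjective (ev n) := by
    intro n a
    obtain ⟨p, rfl⟩ := aeval_surjective_of_generators (res n) (t n) (hgen n) a
    exact ⟨p, evalTrunc_coe _ _ _ p⟩
  have hcomp : ∀ n f, ψ n (ev (n + 1) f) = ev n f := fun n f =>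
    evalTrunc_comp _ _ _ (ψ n) _ (Nat.le_succ _) _ (hk n) (ht n) f
  let K : Ideal (MvPowerSeries σ 𝒪) := ⨅ n, RingHom.ker (ev n).toRingHom
  have hKle : ∀ n, K ≤ RingHom.ker (ev n).toRingHom := fun n => iInf_le _ n
  have hKtop : K ≠ ⊤ := by
    intro h
    have h1 : (1 : MvPowerSeries σ 𝒪) ∈ RingHom.ker (ev 0).toRingHom :=
      hKle 0 (h ▸ Submodule.mem_top)
    rw [RingHom.mem_ker, map_one] at h1
    exact one_ne_zero h1
  have : Nontrivial (MvPowerSeries σ 𝒪 ⧸ K) := Ideal.Quotient.nontrivial_iff.2 hKtop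
  have : IsLocalRing (MvPowerSeries σ 𝒪 ⧸ K) :=
    IsLocalRing.of_surjective' (Ideal.Quotient.mk K) Ideal.Quotient.mk_surjective
  have : IsNoetherianRing (MvPowerSeries σ 𝒪) := inferInstance
  have : IsNoetherianRing (MvPowerSeries σ 𝒪 ⧸ K) := inferInstance
  set R := MvPowerSeries σ 𝒪 ⧸ K
  let π : ∀ n, R →ₐ[𝒪] A n := fun n =>
    Ideal.Quotient.liftₐ K (ev n) fun f hf => hKle n hf
  have hπ : ∀ n, Function.Surjective (π n) := fun n a => by
    obtain ⟨f, rfl⟩ := hev n a
    exact ⟨Ideal.Quotient.mk K f, rfl⟩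
  have hπc : ∀ n r, ψ n (π (n + 1) r) = π n r := fun n r => by
    obtain ⟨f, rfl⟩ := Ideal.Quotient.mk_surjective r
    exact hcomp n f
  have hπc' : ∀ {m n}, m ≤ n → ∀ r, π n r = 0 → π m r = 0 := by
    intro m n hmn
    induction hmn with
    | refl => exact fun r h => h
    | @step n _ ih => exact fun r h => ih r (by rw [← hπc, h, map_zero])
  have hsep : ∀ r : R, (∀ n, π n r = 0) → r = 0 := fun r h => by
    obtain ⟨f, rfl⟩ := Ideal.Quotient.mk_surjective r
    exact Ideal.Quotient.eq_zero_iff_mem.2 (Ideal.mem_iInf.2 fun n => h n)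
  let resR : R →ₐ[𝒪] ResidueField 𝒪 := (res 0).comp (π 0)
  have hloc : ∀ n, IsLocalHom (π n : R →+* A n) := fun n => isLocalHom_of_resHom resR (res n) _
  have hpow : ∀ n r, r ∈ maximalIdeal R ^ (n + 1) → π n r = 0 := by
    intro n r hr
    have h := map_mem_maximalIdeal_pow (π n : R →+* A n) (hloc n) hr
    rw [hlev n, Submodule.mem_bot] at h
    exact h
  have : IsPrecomplete (maximalIdeal R) R := by
    have hF : IsPrecomplete (maximalIdeal (MvPowerSeries σ 𝒪)) (MvPowerSeries σ 𝒪) :=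
      isPrecomplete_mvPowerSeries
    have hm : ∀ n, (maximalIdeal (MvPowerSeries σ 𝒪) ^ n).map (Ideal.Quotient.mk K) =
        maximalIdeal R ^ n := by
      intro n
      rw [Ideal.map_pow, IsLocalRing.map_maximalIdeal_of_surjective _ Ideal.Quotient.mk_surjective]
    refine ⟨fun f hf => ?_⟩
    simp only [SModEq.sub_mem, smul_eq_mul, Ideal.mul_top] at hf
    have hstep : ∀ n, ∃ δ ∈ maximalIdeal (MvPowerSeries σ 𝒪) ^ n,
        Ideal.Quotient.mk K δ = f (n + 1) - f n := by
      intro n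
      have h : f (n + 1) - f n ∈ maximalIdeal R ^ n := by
        rw [← neg_sub]; exact neg_mem (hf (Nat.le_succ n))
      rw [← hm n, Ideal.mem_map_iff_of_surjective _ Ideal.Quotient.mk_surjective] at h
      exact h
    choose δ hδ hδf using hstep
    obtain ⟨g₀, hg₀⟩ := Ideal.Quotient.mk_surjective (f 0)
    let g : ℕ → MvPowerSeries σ 𝒪 := fun n => g₀ + ∑ i ∈ Finset.range n, δ i
    have hg : ∀ n, Ideal.Quotient.mk K (g n) = f n := by
      intro n
      induction n with
      | zero => simp [g, hg₀]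
      | succ n ih =>
        rw [show g (n + 1) = g n + δ n by simp [g, Finset.sum_range_succ, add_assoc], map_add, ih,
          hδf, add_sub_cancel]
    obtain ⟨L, hL⟩ := hF.prec' g (fun {m n} hmn => by
      rw [SModEq.sub_mem, smul_eq_mul, Ideal.mul_top,
        show g m - g n = -∑ i ∈ Finset.Ico m n, δ i by
          rw [Finset.sum_Ico_eq_sub _ hmn]; simp only [g]; ring]
      exact neg_mem (Ideal.sum_mem _ fun i hi =>
        Ideal.pow_le_pow_right (Finset.mem_Ico.1 hi).1 (hδ i)))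
    refine ⟨Ideal.Quotient.mk K L, fun n => ?_⟩
    rw [SModEq.sub_mem, smul_eq_mul, Ideal.mul_top, ← hg n, ← map_sub, ← hm n]
    refine Ideal.mem_map_of_mem _ ?_
    simpa [SModEq.sub_mem] using hL n
  have : IsAdicComplete (maximalIdeal R) R := { }
  have hkerπ : ∀ n r, π n r = 0 → r ∈ maximalIdeal R ^ (n + 1) := by
    intro n r hr
    -- approximations of `r` inside `m ^ (n + 1)`
    have next_ : ∀ j (s : R), π (n + j) (r - s) = 0 →
        ∃ δ ∈ maximalIdeal R ^ (n + 1 + j), π (n + (j + 1)) (r - (s + δ)) = 0 := by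
      intro j s hs
      have h1 : π (n + j + 1) (r - s) ∈ maximalIdeal (A (n + j + 1)) ^ (n + j + 1) :=
        hker _ _ (by rw [hπc]; exact hs)
      rw [← IsLocalRing.map_maximalIdeal_of_surjective (π (n + j + 1)).toRingHom (hπ _),
        ← Ideal.map_pow, Ideal.mem_map_iff_of_surjective (π (n + j + 1)).toRingHom (hπ (n + j + 1))] at h1
      obtain ⟨δ, hδ, hδe⟩ := h1
      refine ⟨δ, Ideal.pow_le_pow_right (by omega) hδ, ?_⟩
      rw [← sub_sub, map_sub]
      exact sub_eq_zero.2 hδe.symm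
    choose! δ hδ hδ' using next_
    let S : ℕ → R := fun j => Nat.rec 0 (fun i s => s + δ i s) j
    have hS : ∀ j, π (n + j) (r - S j) = 0 ∧ S j ∈ maximalIdeal R ^ (n + 1) := by
      intro j
      induction j with
      | zero => exact ⟨by simpa [S] using hr, zero_mem _⟩
      | succ j ih =>
        exact ⟨hδ' j _ ih.1,
          add_mem ih.2 (Ideal.pow_le_pow_right (Nat.le_add_right _ _) (hδ j _ ih.1))⟩
    have hC : ∀ {a b : ℕ}, a ≤ b → S a - S b ∈ maximalIdeal R ^ a := by
      intro a b hab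
      induction hab with
      | refl => rw [sub_self]; exact zero_mem _
      | @step b hab ih =>
        rw [show S (b + 1) = S b + δ b (S b) from rfl, ← sub_sub]
        exact sub_mem ih (Ideal.pow_le_pow_right (le_trans hab (by omega)) (hδ b _ (hS b).1))
    obtain ⟨L, hL⟩ := IsPrecomplete.prec' (I := maximalIdeal R) S (fun {a b} hab => by
      rw [SModEq.sub_mem, smul_eq_mul, Ideal.mul_top]; exact hC hab)
    simp only [SModEq.sub_mem, smul_eq_mul, Ideal.mul_top] at hL
    have hrL : r = L := sub_eq_zero.1 (hsep _ fun i => by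
      rw [show r - L = (r - S (i + 1)) + (S (i + 1) - L) by ring, map_add,
        hπc' (by omega : i ≤ n + (i + 1)) _ (hS (i + 1)).1, hpow i _ (hL (i + 1)), add_zero])
    rw [hrL, show L = S (n + 1) - (S (n + 1) - L) by ring]
    exact sub_mem (hS (n + 1)).2 (hL (n + 1))
  exact ⟨⟨R, resR, π, hπ, hπc, fun n r => ⟨hkerπ n r, hpow n r⟩⟩⟩

variable {ψ : ∀ n, A (n + 1) →ₐ[𝒪] A n}

theorem TowerLimit.ext_of_forall (L : TowerLimit A ψ) {r s : L.R}
    (h : ∀ n, L.π n r = L.π n s) : r = s := by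
  refine sub_eq_zero.1 ((inferInstance : IsHausdorff (maximalIdeal L.R) L.R).haus' _ fun n => ?_)
  rw [SModEq.sub_mem, sub_zero, smul_eq_mul, Ideal.mul_top]
  refine Ideal.pow_le_pow_right (Nat.le_succ n) ((L.π_eq_zero_iff n _).1 ?_)
  rw [map_sub, h n, sub_self]

theorem TowerLimit.exists_lift (L : TowerLimit A ψ) (a : ∀ n, A n)
    (ha : ∀ n, ψ n (a (n + 1)) = a n) : ∃ r : L.R, ∀ n, L.π n r = a n := by
  choose f hf using fun n => L.π_surjective n (a n)
  have hC : ∀ {m n : ℕ}, m ≤ n → f m - f n ∈ maximalIdeal L.R ^ (m + 1) := by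
    intro m n hmn
    induction hmn with
    | refl => rw [sub_self]; exact zero_mem _
    | @step n hmn ih =>
      rw [show f m - f (n + 1) = (f m - f n) + (f n - f (n + 1)) by ring]
      refine add_mem ih (Ideal.pow_le_pow_right (Nat.succ_le_succ hmn) ((L.π_eq_zero_iff n _).1 ?_))
      rw [map_sub, ← L.π_compat n (f (n + 1)), hf, hf, ha, sub_self]
  obtain ⟨r, hr⟩ := IsPrecomplete.prec' (I := maximalIdeal L.R) f (fun {m n} hmn => by
    rw [SModEq.sub_mem, smul_eq_mul, Ideal.mul_top]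
    exact Ideal.pow_le_pow_right (Nat.le_succ m) (hC hmn))
  simp only [SModEq.sub_mem, smul_eq_mul, Ideal.mul_top] at hr
  refine ⟨r, fun n => ?_⟩
  have h : f n - r ∈ maximalIdeal L.R ^ (n + 1) := by
    rw [show f n - r = (f n - f (n + 1)) + (f (n + 1) - r) by ring]
    exact add_mem (hC (Nat.le_succ n)) (hr (n + 1))
  rw [← hf n, eq_comm, ← sub_eq_zero, ← map_sub]
  exact (L.π_eq_zero_iff n _).2 h

end FLTAgent.Deform

end
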