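import Fermat.Agent.Deform.Test

/-!
# Multivariate power series over a complete local ring

In finitely many variables over a local ring the powers of the maximal ideal are described by
coefficients (`maximalIdeal_pow_le_coeffIdeal`, `coeffIdeal_le_maximalIdeal_pow`); hence power
series over a precomplete ring are precomplete (`isPrecomplete_mvPowerSeries`).  `evalTrunc`
evaluates power series at elements all of whose products of length `N` vanish, compatibly with
algebra maps (`evalTrunc_comp`).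
-/

set_option autoImplicit false
set_option linter.unusedSectionVars false

noncomputable section

namespace FLTAgent.Deform

open IsLocalRing
open MvPowerSeries (coeff)

variable {𝒪 : Type} [CommRing 𝒪] [IsLocalRing 𝒪] {σ : Type} [Finite σ]

/-- Power series whose degree `d` coefficients lie in the `(n - d)`-th power of the maximal ideal. -/
def coeffIdeal (n : ℕ) : Ideal (MvPowerSeries σ 𝒪) where
  carrier := {f | ∀ x, coeff x f ∈ maximalIdeal 𝒪 ^ (n - Finsupp.degree x)}
  zero_mem' x := by rw [map_zero]; exact zero_mem _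
  add_mem' hf hg x := by rw [map_add]; exact add_mem (hf x) (hg x)
  smul_mem' c f hf x := by
    classical
    rw [smul_eq_mul, MvPowerSeries.coeff_mul]
    refine Ideal.sum_mem _ fun p hp => Ideal.mul_mem_left _ _ (Ideal.pow_le_pow_right ?_ (hf p.2))
    rw [Finset.HasAntidiagonal.mem_antidiagonal] at hp
    rw [← hp, map_add]
    omega

theorem mem_coeffIdeal {n : ℕ} {f : MvPowerSeries σ 𝒪} :
    f ∈ coeffIdeal n ↔ ∀ x, coeff x f ∈ maximalIdeal 𝒪 ^ (n - Finsupp.degree x) := Iff.rfl

theorem maximalIdeal_le_coeffIdeal : maximalIdeal (MvPowerSeries σ 𝒪) ≤ coeffIdeal 1 := by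
  intro f hf x
  by_cases hx : Finsupp.degree x = 0
  · rw [Finsupp.degree_eq_zero_iff] at hx
    subst hx
    rw [map_zero, Nat.sub_zero, pow_one, mem_maximalIdeal, mem_nonunits_iff]
    intro hu
    exact hf (MvPowerSeries.isUnit_iff_constantCoeff.2 (by simpa using hu))
  · rw [Nat.sub_eq_zero_of_le (by omega), pow_zero, Ideal.one_eq_top]
    exact Submodule.mem_top

theorem coeffIdeal_mul_le (a b : ℕ) :
    (coeffIdeal a : Ideal (MvPowerSeries σ 𝒪)) * coeffIdeal b ≤ coeffIdeal (a + b) := by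
  classical
  refine Ideal.mul_le.2 fun f hf g hg x => ?_
  rw [MvPowerSeries.coeff_mul]
  refine Ideal.sum_mem _ fun p hp => ?_
  rw [Finset.HasAntidiagonal.mem_antidiagonal] at hp
  refine Ideal.pow_le_pow_right (?_ : a + b - Finsupp.degree x ≤
    (a - Finsupp.degree p.1) + (b - Finsupp.degree p.2)) ?_
  · rw [← hp, map_add]; omega
  · rw [pow_add]; exact Ideal.mul_mem_mul (hf _) (hg _)

theorem maximalIdeal_pow_le_coeffIdeal (n : ℕ) :
    maximalIdeal (MvPowerSeries σ 𝒪) ^ n ≤ coeffIdeal n := by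
  induction n with
  | zero =>
    intro f _ x
    rw [Nat.zero_sub, pow_zero, Ideal.one_eq_top]
    exact Submodule.mem_top
  | succ n ih =>
    rw [pow_succ]
    exact (Ideal.mul_mono ih maximalIdeal_le_coeffIdeal).trans (coeffIdeal_mul_le _ _)

theorem span_range_X_le_maximalIdeal :
    Ideal.span (Set.range (MvPowerSeries.X : σ → MvPowerSeries σ 𝒪)) ≤
      maximalIdeal (MvPowerSeries σ 𝒪) := by
  rw [Ideal.span_le]
  rintro _ ⟨i, rfl⟩
  rw [SetLike.mem_coe, mem_maximalIdeal, mem_nonunits_iff, MvPowerSeries.isUnit_iff_constantCoeff,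
    MvPowerSeries.constantCoeff_X]
  exact not_isUnit_zero

theorem coeff_eq_zero_of_mem_span_range_X_pow {f : MvPowerSeries σ 𝒪} {n : ℕ} {x : σ →₀ ℕ}
    (hf : f ∈ Ideal.span (Set.range (MvPowerSeries.X : σ → MvPowerSeries σ 𝒪)) ^ n)
    (hx : Finsupp.degree x < n) : coeff x f = 0 := by
  classical
  induction n generalizing f x with
  | zero => omega
  | succ n ih =>
    rw [pow_succ] at hf
    refine Submodule.mul_induction_on hf (fun g hg h hh => ?_) (fun g h hg hh => ?_)
    · rw [MvPowerSeries.coeff_mul]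
      refine Finset.sum_eq_zero fun p hp => ?_
      rw [Finset.HasAntidiagonal.mem_antidiagonal] at hp
      by_cases h2 : p.2 = 0
      · rw [h2, MvPowerSeries.coeff_zero_eq_constantCoeff_apply]
        have : MvPowerSeries.constantCoeff h = 0 := by
          refine Submodule.span_induction (p := fun q _ => MvPowerSeries.constantCoeff q = 0)
            (fun q hq => ?_) (map_zero _) (fun a b _ _ ha hb => by rw [map_add, ha, hb, add_zero])
            (fun a b _ hb => by rw [smul_eq_mul, map_mul, hb, mul_zero]) hh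
          obtain ⟨i, rfl⟩ := hq
          exact MvPowerSeries.constantCoeff_X i
        rw [this, mul_zero]
      · rw [ih hg ?_, zero_mul]
        have h1 : Finsupp.degree p.2 ≠ 0 := fun hh => h2 ((Finsupp.degree_eq_zero_iff _).1 hh)
        rw [← hp, map_add] at hx
        omega
    · rw [map_add, hg, hh, add_zero]

theorem mem_pow_of_coeff_eq_zero {f : MvPowerSeries σ 𝒪} {n : ℕ}
    (h : ∀ x, Finsupp.degree x < n → coeff x f = 0) :
    f ∈ Ideal.span (Set.range (MvPowerSeries.X : σ → MvPowerSeries σ 𝒪)) ^ n := by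
  set J := Ideal.span (Set.range (MvPowerSeries.X : σ → MvPowerSeries σ 𝒪)) with hJ
  have : IsPrecomplete J (MvPowerSeries σ 𝒪) := inferInstance
  let s : ℕ → MvPowerSeries σ 𝒪 := fun k => ((MvPowerSeries.truncTotal k f : MvPolynomial σ 𝒪) :
    MvPowerSeries σ 𝒪)
  have hpoly : ∀ (q : MvPolynomial σ 𝒪) (m : ℕ),
      (∀ x, Finsupp.degree x < m → q.coeff x = 0) → (q : MvPowerSeries σ 𝒪) ∈ J ^ m := by
    intro q m hq
    have hmem : q ∈ MvPolynomial.idealOfVars σ 𝒪 ^ m :=
      (MvPolynomial.mem_pow_idealOfVars_iff' ..).2 hq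
    have := Ideal.mem_map_of_mem (MvPolynomial.coeToMvPowerSeries.ringHom) hmem
    rw [Ideal.map_pow, MvPolynomial.idealOfVars, Ideal.map_span, ← Set.range_comp] at this
    rwa [show (⇑(MvPolynomial.coeToMvPowerSeries.ringHom (σ := σ) (R := 𝒪)) ∘ MvPolynomial.X) =
      MvPowerSeries.X from funext fun i => MvPolynomial.coe_X i] at this
  have hcauchy : ∀ {m k : ℕ}, m ≤ k →
      s m ≡ s k [SMOD (J ^ m • ⊤ : Submodule (MvPowerSeries σ 𝒪) (MvPowerSeries σ 𝒪))] := by
    intro m k hmk
    rw [SModEq.sub_mem, smul_eq_mul, Ideal.mul_top,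
      show s m - s k = ((MvPowerSeries.truncTotal m f - MvPowerSeries.truncTotal k f :
        MvPolynomial σ 𝒪) : MvPowerSeries σ 𝒪) from
        (map_sub MvPolynomial.coeToMvPowerSeries.ringHom _ _).symm]
    refine hpoly _ _ fun x hx => ?_
    rw [MvPolynomial.coeff_sub, MvPowerSeries.coeff_truncTotal _ hx,
      MvPowerSeries.coeff_truncTotal _ (lt_of_lt_of_le hx hmk), sub_self]
  obtain ⟨L, hL⟩ := IsPrecomplete.prec' (I := J) s hcauchy
  simp only [SModEq.sub_mem, smul_eq_mul, Ideal.mul_top] at hL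
  have hLf : L = f := MvPowerSeries.ext fun x => by
    have h1 := coeff_eq_zero_of_mem_span_range_X_pow (hL (Finsupp.degree x + 1)) (Nat.lt_succ_self _)
    rw [map_sub, MvPolynomial.coeff_coe,
      MvPowerSeries.coeff_truncTotal _ (Nat.lt_succ_self _), sub_eq_zero] at h1
    exact h1.symm
  have h0 : s n = 0 := MvPowerSeries.ext fun x => by
    rw [map_zero, MvPolynomial.coeff_coe, MvPowerSeries.coeff_truncTotal_eq_ite]
    split
    · exact h x ‹_›
    · rfl
  have := hL n
  rw [h0, hLf, zero_sub] at this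
  simpa using this

theorem coeffIdeal_le_maximalIdeal_pow (n : ℕ) :
    (coeffIdeal n : Ideal (MvPowerSeries σ 𝒪)) ≤ maximalIdeal (MvPowerSeries σ 𝒪) ^ n := by
  classical
  intro f hf
  set p : MvPolynomial σ 𝒪 := MvPowerSeries.truncTotal n f with hp
  rw [← sub_add_cancel f (p : MvPowerSeries σ 𝒪)]
  refine add_mem (Ideal.pow_right_mono span_range_X_le_maximalIdeal n
    (mem_pow_of_coeff_eq_zero fun x hx => ?_)) ?_
  · rw [map_sub, MvPolynomial.coeff_coe, hp, MvPowerSeries.coeff_truncTotal _ hx, sub_self]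
  conv => arg 2; rw [p.as_sum]
  rw [show ((∑ x ∈ p.support, MvPolynomial.monomial x (p.coeff x) : MvPolynomial σ 𝒪) :
      MvPowerSeries σ 𝒪) = ∑ x ∈ p.support, (MvPolynomial.monomial x (p.coeff x) : MvPowerSeries σ 𝒪)
    from map_sum MvPolynomial.coeToMvPowerSeries.ringHom _ _]
  refine Ideal.sum_mem _ fun x hx => ?_
  have hxn : Finsupp.degree x < n := by
    by_contra hge
    rw [MvPolynomial.mem_support_iff, hp,
      MvPowerSeries.coeff_truncTotal_eq_zero _ (not_lt.1 hge)] at hx
    exact hx rfl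
  have hc : p.coeff x ∈ maximalIdeal 𝒪 ^ (n - Finsupp.degree x) := by
    rw [hp, MvPowerSeries.coeff_truncTotal _ hxn]; exact hf x
  have e : (MvPolynomial.monomial x (p.coeff x) : MvPowerSeries σ 𝒪) =
      (MvPowerSeries.C (p.coeff x)) * ((MvPolynomial.monomial x 1 : MvPolynomial σ 𝒪) : MvPowerSeries σ 𝒪) := by
    rw [← MvPolynomial.coe_C, ← MvPolynomial.coe_mul, MvPolynomial.C_mul_monomial, mul_one]
  rw [e]
  have hn : n = (n - Finsupp.degree x) + Finsupp.degree x := by omega
  rw [hn, pow_add]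
  refine Ideal.mul_mem_mul ?_ (Ideal.pow_right_mono span_range_X_le_maximalIdeal _
    (mem_pow_of_coeff_eq_zero fun y hy => ?_))
  · have hm := Ideal.mem_map_of_mem (MvPowerSeries.C : 𝒪 →+* MvPowerSeries σ 𝒪) hc
    rw [Ideal.map_pow] at hm
    refine Ideal.pow_right_mono (Ideal.map_le_iff_le_comap.2 fun a ha => ?_) _ hm
    rw [Ideal.mem_comap, mem_maximalIdeal, mem_nonunits_iff,
      MvPowerSeries.isUnit_iff_constantCoeff, MvPowerSeries.constantCoeff_C]
    exact ha
  · rw [MvPolynomial.coeff_coe, MvPolynomial.coeff_monomial, if_neg]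
    rintro rfl
    exact lt_irrefl _ hy

/-- Power series over a complete local ring are precomplete for their maximal ideal. -/
theorem isPrecomplete_mvPowerSeries [IsPrecomplete (maximalIdeal 𝒪) 𝒪] :
    IsPrecomplete (maximalIdeal (MvPowerSeries σ 𝒪)) (MvPowerSeries σ 𝒪) := by
  refine ⟨fun f hf => ?_⟩
  simp only [SModEq.sub_mem, smul_eq_mul, Ideal.mul_top] at hf
  have key : ∀ x : σ →₀ ℕ, ∃ L : 𝒪, ∀ k,
      coeff x (f (k + Finsupp.degree x)) - L ∈ maximalIdeal 𝒪 ^ k := by
    intro x
    obtain ⟨L, hL⟩ := IsPrecomplete.prec' (I := maximalIdeal 𝒪)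
      (fun k => coeff x (f (k + Finsupp.degree x))) (fun {m k} hmk => by
        rw [SModEq.sub_mem, smul_eq_mul, Ideal.mul_top, ← map_sub]
        have := maximalIdeal_pow_le_coeffIdeal _
          (hf (Nat.add_le_add_right hmk (Finsupp.degree x))) x
        rwa [Nat.add_sub_cancel] at this)
    exact ⟨L, fun k => by simpa [SModEq.sub_mem] using hL k⟩
  choose L hL using key
  let L' : MvPowerSeries σ 𝒪 := fun x => L x
  refine ⟨L', fun n => ?_⟩
  rw [SModEq.sub_mem, smul_eq_mul, Ideal.mul_top]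
  refine coeffIdeal_le_maximalIdeal_pow n fun x => ?_
  rcases le_total n (Finsupp.degree x) with h | h
  · rw [Nat.sub_eq_zero_of_le h, pow_zero, Ideal.one_eq_top]; exact Submodule.mem_top
  · have := hL x (n - Finsupp.degree x)
    rw [Nat.sub_add_cancel h] at this
    rw [map_sub]
    exact this

section Eval

variable {A : Type} [CommRing A] [Algebra 𝒪 A] (N : ℕ) (t : σ → A)
  (ht : MvPolynomial.idealOfVars σ 𝒪 ^ N ≤ RingHom.ker (MvPolynomial.aeval t))

/-- Evaluation of power series at elements with products of length `N` equal to zero. -/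
def evalTrunc : MvPowerSeries σ 𝒪 →ₐ[𝒪] A :=
  (Ideal.Quotient.liftₐ (MvPolynomial.idealOfVars σ 𝒪 ^ N) (MvPolynomial.aeval t)
    fun _ hp => RingHom.mem_ker.1 (ht hp)).comp
    ((MvPowerSeries.truncTotalAlgHom σ 𝒪 N).restrictScalars 𝒪)

theorem evalTrunc_apply (f : MvPowerSeries σ 𝒪) :
    evalTrunc N t ht f = MvPolynomial.aeval t (MvPowerSeries.truncTotal N f) := rfl

theorem evalTrunc_coe (p : MvPolynomial σ 𝒪) :
    evalTrunc N t ht (p : MvPowerSeries σ 𝒪) = MvPolynomial.aeval t p := by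
  rw [evalTrunc_apply, ← sub_eq_zero, ← map_sub]
  refine RingHom.mem_ker.1 (ht ((MvPolynomial.mem_pow_idealOfVars_iff' ..).2 fun x hx => ?_))
  rw [MvPolynomial.coeff_sub, MvPowerSeries.coeff_truncTotal _ hx, MvPolynomial.coeff_coe, sub_self]

theorem evalTrunc_comp {B : Type} [CommRing B] [Algebra 𝒪 B] (ψ : A →ₐ[𝒪] B) (M : ℕ) (hMN : M ≤ N)
    (u : σ → B) (hu : MvPolynomial.idealOfVars σ 𝒪 ^ M ≤ RingHom.ker (MvPolynomial.aeval u))
    (hψ : ∀ i, ψ (t i) = u i) (f : MvPowerSeries σ 𝒪) :
    ψ (evalTrunc N t ht f) = evalTrunc M u hu f := by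
  have : ψ.comp (MvPolynomial.aeval t) = MvPolynomial.aeval u :=
    MvPolynomial.algHom_ext fun i => by simp [hψ]
  rw [evalTrunc_apply, evalTrunc_apply, show ψ (MvPolynomial.aeval t _) = _ from
    AlgHom.congr_fun this _, ← sub_eq_zero, ← map_sub]
  exact RingHom.mem_ker.1
    (hu (MvPowerSeries.truncTotal_sub_truncTotal_mem_pow_idealOfVars hMN le_rfl f))

end Eval

end FLTAgent.Deform

end
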