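import Fermat.Agent.Deform.Tower

/-!
# Finite tangent space gives a uniform bound on generators

From `TangentFinite` only finitely many trace functions occur on deformations to the dual numbers
(`exists_finite_traceSet`).  An ideal just below the maximal ideal gives a map onto the dual numbers
(`exists_algHom_dualNumber`), so finitely many elements of the free algebra on the Galois group
generate the maximal ideal modulo that of `𝒪` in every deformation generated by its traces
(`exists_cotangent_generators`).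
-/

set_option autoImplicit false
set_option linter.unusedSectionVars false

noncomputable section

namespace FLTAgent.Deform

open IsLocalRing Matrix
open scoped TensorProduct DualNumber

theorem residualGaloisRep_isEquiv_of_toMatrix {k : Type} [Field k] {ρ₁ ρ₂ : ResidualGaloisRep k}
    (b₁ : Module.Basis (Fin 2) k ρ₁.V) (b₂ : Module.Basis (Fin 2) k ρ₂.V)
    (h : ∀ g, LinearMap.toMatrix b₁ b₁ (ρ₁.ρ g) = LinearMap.toMatrix b₂ b₂ (ρ₂.ρ g)) :
    ρ₁.IsEquiv ρ₂ := by
  refine ⟨⟨b₁.equivFun.trans b₂.equivFun.symm, fun g x => ?_⟩⟩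
  apply b₂.equivFun.injective
  simp only [LinearEquiv.trans_apply, LinearEquiv.apply_symm_apply]
  have h1 : b₁.equivFun (ρ₁.ρ g x) = LinearMap.toMatrix b₁ b₁ (ρ₁.ρ g) *ᵥ b₁.equivFun x := by
    simp only [Module.Basis.equivFun_apply]
    exact (LinearMap.toMatrix_mulVec_repr b₁ b₁ (ρ₁.ρ g) x).symm
  have h2 : ∀ y, b₂.equivFun (ρ₂.ρ g y) = LinearMap.toMatrix b₂ b₂ (ρ₂.ρ g) *ᵥ b₂.equivFun y := by
    intro y
    simp only [Module.Basis.equivFun_apply]
    exact (LinearMap.toMatrix_mulVec_repr b₂ b₂ (ρ₂.ρ g) y).symm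
  rw [h1, h2, LinearEquiv.apply_symm_apply, h g]

variable {𝒪 : Type} [CommRing 𝒪] [IsLocalRing 𝒪]

local notation "𝕜" => ResidueField 𝒪

/-- The residual representation of a representation with prescribed matrices. -/
theorem residual_isEquiv_of_matOf (c : Ctx 𝒪) {A : Type} [CommRing A] [IsLocalRing A]
    (ρ : GaloisRepAdic A) (b : Module.Basis (Fin 2) A ρ.V)
    (ψ : ResidueField 𝒪 →+* ResidueField A)
    (h : ∀ g, (matOf ρ b g).map (residue A) = (c.Mbar g).map ψ) :
    ρ.residual.IsEquiv (c.ρbar.baseChangeAlong ψ) := by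
  let := ψ.toAlgebra
  refine residualGaloisRep_isEquiv_of_toMatrix
    (Algebra.TensorProduct.basis (ResidueField A) b)
    (Algebra.TensorProduct.basis (ResidueField A) c.basis) fun g => ?_
  show LinearMap.toMatrix _ _ ((ρ.ρ g).baseChange (ResidueField A)) =
    LinearMap.toMatrix _ _ ((c.ρbar.ρ g).baseChange (ResidueField A))
  rw [LinearMap.toMatrix_baseChange, LinearMap.toMatrix_baseChange]
  exact h g

/-- The dual numbers over `k` as an `𝒪`-algebra, as in `TangentFinite`. -/
@[reducible] def epsAlgebra : Algebra 𝒪 (DualNumber (ResidueField 𝒪)) :=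
  ((algebraMap (ResidueField 𝒪) (DualNumber (ResidueField 𝒪))).comp
    (algebraMap 𝒪 (ResidueField 𝒪))).toAlgebra

theorem finite_range_quotient_lift {α β : Type*} (s : Setoid α) (hs : Finite (Quotient s))
    (f : α → β) (hf : ∀ a b, s.r a b → f a = f b) : (Set.range f).Finite := by
  refine (Set.finite_range (Quotient.lift f hf)).subset ?_
  rintro _ ⟨a, rfl⟩
  exact ⟨Quotient.mk s a, rfl⟩

theorem exists_finite_traceSet (c : Ctx 𝒪) :
    letI := epsAlgebra (𝒪 := 𝒪)
    ∃ T : Set (GQ → DualNumber (ResidueField 𝒪)), T.Finite ∧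
      ∀ ρ : GaloisRepAdic (DualNumber (ResidueField 𝒪)), c.𝒟 ρ →
        ρ.residual.IsEquiv (c.ρbar.baseChangeAlong
          ((residue (DualNumber (ResidueField 𝒪))).comp
            (algebraMap (ResidueField 𝒪) (DualNumber (ResidueField 𝒪))))) →
        (fun g => ρ.trace g) ∈ T := by
  let := epsAlgebra (𝒪 := 𝒪)
  have h := c.hfin
  unfold GaloisRep.TangentFinite at h
  refine ⟨Set.range fun (ρ : {ρ : GaloisRepAdic (DualNumber (ResidueField 𝒪)) //
      c.𝒟 ρ ∧ ρ.residual.IsEquiv (c.ρbar.baseChangeAlong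
          ((residue (DualNumber (ResidueField 𝒪))).comp
            (algebraMap (ResidueField 𝒪) (DualNumber (ResidueField 𝒪)))))}) =>
      fun g => ρ.1.trace g, ?_, fun ρ h1 h2 => ⟨⟨ρ, h1, h2⟩, rfl⟩⟩
  exact finite_range_quotient_lift _ h (fun ρ => fun g => ρ.1.trace g)
    fun a b hab => funext fun g => trace_eq_of_isEquiv hab g

variable [Finite (ResidueField 𝒪)]

theorem finite_dualNumber : Finite (DualNumber (ResidueField 𝒪)) :=
  Finite.of_injective (fun x : DualNumber (ResidueField 𝒪) =>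
    (TrivSqZeroExt.fst x, TrivSqZeroExt.snd x)) fun _ _ h =>
      TrivSqZeroExt.ext (congrArg Prod.fst h) (congrArg Prod.snd h)

/-- An ideal just below the maximal ideal gives a map onto the dual numbers. -/
theorem exists_algHom_dualNumber {A : Type} [CommRing A] [IsLocalRing A] [Algebra 𝒪 A] [Finite A]
    (χ : A →ₐ[𝒪] ResidueField 𝒪) (N : Ideal A)
    (hpi : (maximalIdeal 𝒪).map (algebraMap 𝒪 A) ≤ N) (hsq : maximalIdeal A ^ 2 ≤ N)
    (hne : N < maximalIdeal A) :
    letI := epsAlgebra (𝒪 := 𝒪)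
    ∃ φ : A →ₐ[𝒪] DualNumber (ResidueField 𝒪),
      (∀ a ∈ N, φ a = 0) ∧ ∃ x ∈ maximalIdeal A, φ x ≠ 0 := by
  classical
  let := epsAlgebra (𝒪 := 𝒪)
  obtain ⟨N', ⟨hN', hN'lt⟩, hmax⟩ := Set.Finite.exists_maximal
    (s := {I : Ideal A | N ≤ I ∧ I < maximalIdeal A}) (Set.toFinite _) ⟨N, le_rfl, hne⟩
  obtain ⟨x, hx, hxN⟩ := SetLike.exists_of_lt hN'lt
  have hgen : N' ⊔ Ideal.span {x} = maximalIdeal A := by
    have hle : N' ⊔ Ideal.span {x} ≤ maximalIdeal A :=
      sup_le hN'lt.le ((Ideal.span_singleton_le_iff_mem _).2 hx)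
    rcases eq_or_lt_of_le hle with h | hlt
    · exact h
    exfalso
    exact hxN (hmax ⟨hN'.trans le_sup_left, hlt⟩ le_sup_left
      (Ideal.mem_sup_right (Ideal.mem_span_singleton_self x)))
  let f : ResidueField 𝒪 →+* A ⧸ N' := Ideal.Quotient.lift (maximalIdeal 𝒪)
    ((Ideal.Quotient.mk N').comp (algebraMap 𝒪 A)) fun a ha =>
      Ideal.Quotient.eq_zero_iff_mem.2 (hN' (hpi (Ideal.mem_map_of_mem _ ha)))
  have hf : ∀ a : 𝒪, f (residue 𝒪 a) = Ideal.Quotient.mk N' (algebraMap 𝒪 A a) := fun a => rfl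
  let : Algebra (ResidueField 𝒪) (A ⧸ N') := f.toAlgebra
  have hx2 : Ideal.Quotient.mk N' x * Ideal.Quotient.mk N' x = 0 := by
    rw [← map_mul, Ideal.Quotient.eq_zero_iff_mem]
    exact hN' (hsq (by rw [sq]; exact Ideal.mul_mem_mul hx hx))
  let θ : DualNumber (ResidueField 𝒪) →ₐ[ResidueField 𝒪] A ⧸ N' :=
    DualNumber.lift ⟨(Algebra.ofId _ _, Ideal.Quotient.mk N' x), hx2, fun _ => Commute.all _ _⟩
  have hθ : ∀ u : DualNumber (ResidueField 𝒪),
      θ u = f (TrivSqZeroExt.fst u) + f (TrivSqZeroExt.snd u) * Ideal.Quotient.mk N' x :=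
    fun u => rfl
  have hsurj : Function.Surjective θ := by
    intro y
    obtain ⟨a, rfl⟩ := Ideal.Quotient.mk_surjective y
    have hm := sub_algebraMap_sec_mem χ a
    rw [← hgen, Submodule.mem_sup] at hm
    obtain ⟨n, hn, w, hw, hnw⟩ := hm
    obtain ⟨r, rfl⟩ := Ideal.mem_span_singleton'.1 hw
    refine ⟨TrivSqZeroExt.inl (χ a) + TrivSqZeroExt.inr (χ r), ?_⟩
    rw [hθ]
    simp only [TrivSqZeroExt.fst_add, TrivSqZeroExt.fst_inl, TrivSqZeroExt.fst_inr,
      TrivSqZeroExt.snd_add, TrivSqZeroExt.snd_inl, TrivSqZeroExt.snd_inr, add_zero, zero_add]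
    rw [← residue_sec (χ a), ← residue_sec (χ r), hf, hf, ← map_mul, ← map_add]
    refine (Ideal.Quotient.eq.2 ?_).symm
    have hr := Ideal.mul_mem_right x _ (sub_algebraMap_sec_mem χ r)
    have hr' : (r - algebraMap 𝒪 A (sec (χ r))) * x ∈ N' := by
      rw [← hgen, Submodule.mem_sup] at hr
      exact hN' (hsq (by
        rw [sq]; exact Ideal.mul_mem_mul (sub_algebraMap_sec_mem χ r) hx))
    have := add_mem hn hr'
    convert this using 1
    linear_combination -hnw
  have hinj : Function.Injective θ := by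
    rw [injective_iff_map_eq_zero]
    intro u hu
    rw [hθ, ← residue_sec (TrivSqZeroExt.fst u), ← residue_sec (TrivSqZeroExt.snd u), hf, hf,
      ← map_mul, ← map_add, Ideal.Quotient.eq_zero_iff_mem] at hu
    have h1 : TrivSqZeroExt.fst u = 0 := by
      have := (resHom_eq_zero_iff χ _).2 (hN'lt.le hu)
      rwa [map_add, map_mul, (resHom_eq_zero_iff χ x).2 hx, mul_zero, add_zero, resHom_algebraMap,
        residue_sec] at this
    have h2 : TrivSqZeroExt.snd u = 0 := by
      by_contra hne'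
      have hc : IsUnit (algebraMap 𝒪 A (sec (TrivSqZeroExt.snd u))) := by
        rw [isUnit_iff_resHom_ne_zero χ, resHom_algebraMap, residue_sec]; exact hne'
      have h0 : algebraMap 𝒪 A (sec (TrivSqZeroExt.fst u)) ∈ N' := by
        refine hN' (hpi (Ideal.mem_map_of_mem _ ?_))
        rw [← residue_eq_zero_iff, residue_sec, h1]
      have := (N'.add_mem_iff_right h0).1 hu
      exact hxN ((Ideal.unit_mul_mem_iff_mem _ hc).1 this)
    exact TrivSqZeroExt.ext h1 h2
  let e := RingEquiv.ofBijective θ ⟨hinj, hsurj⟩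
  refine ⟨{ e.symm.toRingHom.comp (Ideal.Quotient.mk N') with commutes' := fun a => ?_ }, ?_, ?_⟩
  · refine e.symm_apply_eq.2 ?_
    exact (θ.commutes (residue 𝒪 a)).symm
  · intro a ha
    show e.symm (Ideal.Quotient.mk N' a) = 0
    rw [Ideal.Quotient.eq_zero_iff_mem.2 (hN' ha), map_zero]
  · refine ⟨x, hx, ?_⟩
    show e.symm (Ideal.Quotient.mk N' x) ≠ 0
    rw [ne_eq, EmbeddingLike.map_eq_zero_iff, Ideal.Quotient.eq_zero_iff_mem]
    exact hxN

/-- Finitely many elements of the free algebra generate the maximal ideal (modulo the maximal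
ideal of `𝒪`) in every deformation. -/
theorem exists_cotangent_generators (c : Ctx 𝒪) :
    ∃ (σ : Type) (_ : Finite σ) (T : σ → MvPolynomial GQ 𝒪),
      (∀ i, traceHom c.Mbar (T i) = 0) ∧
      ∀ X : Defm c, maximalIdeal X.A =
        (maximalIdeal 𝒪).map (algebraMap 𝒪 X.A) ⊔ Ideal.span (Set.range fun i => X.chi (T i)) := by
  classical
  let := epsAlgebra (𝒪 := 𝒪)
  have := finite_dualNumber (𝒪 := 𝒪)
  obtain ⟨S, hSfin, hS⟩ := exists_finite_traceSet c
  have := hSfin.to_subtype
  let Ψ : MvPolynomial GQ 𝒪 → S → DualNumber (ResidueField 𝒪) :=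
    fun p τ => MvPolynomial.aeval (τ : GQ → DualNumber (ResidueField 𝒪)) p
  let R₀ : Set (S → DualNumber (ResidueField 𝒪)) :=
    Ψ '' {p | traceHom c.Mbar p = 0}
  have : Finite (S → DualNumber (ResidueField 𝒪)) := Pi.finite
  choose T hT hTΨ using fun y : R₀ => y.2
  refine ⟨R₀, inferInstance, T, hT, fun X => ?_⟩
  set N := (maximalIdeal 𝒪).map (algebraMap 𝒪 X.A) ⊔ Ideal.span (Set.range fun i => X.chi (T i))
    with hN
  have hNle : N ≤ maximalIdeal X.A := by
    refine sup_le (Ideal.map_le_iff_le_comap.2 fun a ha => ?_) (Ideal.span_le.2 ?_)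
    · rw [Ideal.mem_comap, ← resHom_eq_zero_iff X.res, resHom_algebraMap]
      exact (residue_eq_zero_iff a).2 ha
    · rintro _ ⟨i, rfl⟩
      rw [SetLike.mem_coe, ← resHom_eq_zero_iff X.res, ← AlgHom.comp_apply, X.res_chi]
      exact hT i
  have key : N ⊔ maximalIdeal X.A ^ 2 = maximalIdeal X.A := by
    by_contra hne
    have hlt : N ⊔ maximalIdeal X.A ^ 2 < maximalIdeal X.A :=
      lt_of_le_of_ne (sup_le hNle (Ideal.pow_le_self two_ne_zero)) hne
    obtain ⟨φ, hφN, x, hx, hφx⟩ := exists_algHom_dualNumber X.res _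
      (le_sup_of_le_left le_sup_left) le_sup_right hlt
    apply hφx
    let χE : DualNumber (ResidueField 𝒪) →ₐ[𝒪] ResidueField 𝒪 :=
      { TrivSqZeroExt.fstHom (ResidueField 𝒪) (ResidueField 𝒪) (ResidueField 𝒪) with
        commutes' := fun a => rfl }
    have hloc : IsLocalHom (φ : X.A →+* DualNumber (ResidueField 𝒪)) :=
      isLocalHom_of_resHom X.res χE φ
    have hE := isArtinianTestAlgebra_of_finite χE
    have hc' := X.cont.map φ.toRingHom hloc
    have hD : c.𝒟 (toRep (mapRep φ.toRingHom X.M) hc') :=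
      c.h𝒟.of_isEquiv hE (toRep_baseChangeAlong _ hloc X.M X.cont _ hc' rfl)
        (c.h𝒟.baseChangeAlong (isArtinianTestAlgebra_of_finite X.res) hE φ hloc X.ofType)
    have hres : (toRep (mapRep φ.toRingHom X.M) hc').residual.IsEquiv (c.ρbar.baseChangeAlong
        ((residue (DualNumber (ResidueField 𝒪))).comp
          (algebraMap (ResidueField 𝒪) (DualNumber (ResidueField 𝒪))))) := by
      refine residual_isEquiv_of_matOf c _ (stdBasis _ hc') _ fun g => ?_
      rw [matOf_toRep, ← X.norm, mapRep_apply, mapRep_apply, Matrix.map_map, Matrix.map_map]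
      ext i j
      simp only [Matrix.map_apply, Function.comp_apply, RingHom.comp_apply]
      show residue _ (φ (X.M g i j)) = residue _ (algebraMap _ _ (X.res (X.M g i j)))
      rw [← sub_eq_zero, ← map_sub, residue_eq_zero_iff, ← resHom_eq_zero_iff χE, map_sub,
        sub_eq_zero, ← AlgHom.comp_apply, resHom_comp X.res χE φ]
      rfl
    have hmem := hS _ hD hres
    have hτ : ∀ p, Ψ p ⟨_, hmem⟩ = φ (X.chi p) := by
      intro p
      show MvPolynomial.aeval (fun g => (toRep (mapRep φ.toRingHom X.M) hc').trace g) p = _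
      have e : (fun g => (toRep (mapRep φ.toRingHom X.M) hc').trace g) =
          fun g => (mapRep φ.toRingHom X.M g).trace := funext fun g => trace_toRep _ _ g
      rw [e]
      exact AlgHom.congr_fun (traceHom_mapRep φ X.M) p
    obtain ⟨p, rfl⟩ := X.gen x
    have hp : traceHom c.Mbar p = 0 := by
      rw [← X.res_chi, AlgHom.comp_apply]
      exact (resHom_eq_zero_iff X.res _).2 hx
    let y : R₀ := ⟨Ψ p, p, hp, rfl⟩
    have h1 := congrFun (hTΨ y) ⟨_, hmem⟩
    rw [hτ] at h1
    have h2 : φ (X.chi (T y)) = 0 :=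
      hφN _ (Submodule.mem_sup_left (Submodule.mem_sup_right (Ideal.subset_span ⟨y, rfl⟩)))
    rw [h2] at h1
    show φ (X.chi p) = 0
    rw [← hτ p]
    exact h1.symm
  refine le_antisymm ?_ hNle
  refine Submodule.le_of_le_smul_of_le_jacobson_bot (I := maximalIdeal X.A)
    (IsNoetherian.noetherian _) (maximalIdeal_le_jacobson ⊥) ?_
  rw [smul_eq_mul, ← sq]
  exact key.ge

end FLTAgent.Deform

end
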