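import Mathlib
import Fermat.Prelude.Def_GaloisRep_DeformationCondition

/-!
# Finite test algebras with a map to the residue field

Elementary facts about finite local `𝒪`-algebras with residue field `k = 𝒪/𝔪`, phrased through the
(unique) `𝒪`-algebra map `χ : A →ₐ[𝒪] k`: its kernel (`ker_resHom`), locality
(`isLocalRing_of_resHom`, `isLocalHom_of_resHom`), existence (`exists_resHom`), and the equivalence
with Artinian test algebras (`isArtinianTestAlgebra_of_finite`, `finite_of_isArtinianTestAlgebra`).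
-/

set_option autoImplicit false
set_option linter.unusedSectionVars false

noncomputable section

namespace FLTAgent.Deform

open IsLocalRing

variable {𝒪 : Type} [CommRing 𝒪] [IsLocalRing 𝒪]

local notation "𝕜" => ResidueField 𝒪

variable {A B : Type} [CommRing A] [Algebra 𝒪 A] [CommRing B] [Algebra 𝒪 B]

theorem resHom_algebraMap (χ : A →ₐ[𝒪] 𝕜) (c : 𝒪) : χ (algebraMap 𝒪 A c) = residue 𝒪 c :=
  χ.commutes c

theorem resHom_surjective (χ : A →ₐ[𝒪] 𝕜) : Function.Surjective χ := fun x => by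
  obtain ⟨c, rfl⟩ := residue_surjective x
  exact ⟨algebraMap 𝒪 A c, resHom_algebraMap χ c⟩

/-- A set theoretic section of the residue map. -/
def sec (x : ResidueField 𝒪) : 𝒪 := Function.surjInv residue_surjective x

@[simp] theorem residue_sec (x : ResidueField 𝒪) : residue 𝒪 (sec x) = x :=
  Function.surjInv_eq residue_surjective x

section Local

variable [IsLocalRing A] [IsLocalRing B]

theorem ker_resHom (χ : A →ₐ[𝒪] 𝕜) : RingHom.ker χ.toRingHom = maximalIdeal A :=
  haveI := RingHom.ker_isMaximal_of_surjective χ.toRingHom (resHom_surjective χ)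
  IsLocalRing.eq_maximalIdeal this

theorem resHom_eq_zero_iff (χ : A →ₐ[𝒪] 𝕜) (a : A) : χ a = 0 ↔ a ∈ maximalIdeal A := by
  rw [← ker_resHom χ, RingHom.mem_ker]; rfl

theorem sub_algebraMap_sec_mem (χ : A →ₐ[𝒪] 𝕜) (a : A) :
    a - algebraMap 𝒪 A (sec (χ a)) ∈ maximalIdeal A := by
  rw [← resHom_eq_zero_iff χ, map_sub, resHom_algebraMap, residue_sec, sub_self]

theorem resHom_subsingleton (χ χ' : A →ₐ[𝒪] 𝕜) : χ = χ' := by
  refine AlgHom.ext fun a => ?_
  have h := (resHom_eq_zero_iff χ' _).2 (sub_algebraMap_sec_mem χ a)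
  rw [map_sub, resHom_algebraMap, residue_sec, sub_eq_zero] at h
  exact h.symm

theorem resHom_comp (χA : A →ₐ[𝒪] 𝕜) (χB : B →ₐ[𝒪] 𝕜) (φ : A →ₐ[𝒪] B) : χB.comp φ = χA :=
  resHom_subsingleton _ _

theorem isUnit_iff_resHom_ne_zero (χ : A →ₐ[𝒪] 𝕜) (a : A) : IsUnit a ↔ χ a ≠ 0 := by
  rw [Ne, resHom_eq_zero_iff, mem_maximalIdeal, mem_nonunits_iff, not_not]

theorem isLocalHom_of_resHom (χA : A →ₐ[𝒪] 𝕜) (χB : B →ₐ[𝒪] 𝕜) (φ : A →ₐ[𝒪] B) :
    IsLocalHom (φ : A →+* B) :=
  ⟨fun a ha => by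
    rw [isUnit_iff_resHom_ne_zero χA, ← resHom_comp χA χB φ]
    exact (isUnit_iff_resHom_ne_zero χB _).1 ha⟩

theorem isLocalHom_algebraMap (χ : A →ₐ[𝒪] 𝕜) : IsLocalHom (algebraMap 𝒪 A) :=
  ⟨fun c hc => by
    rw [isUnit_iff_resHom_ne_zero χ, resHom_algebraMap, residue_ne_zero_iff_isUnit] at hc
    exact hc⟩

theorem residue_comp_surjective (χ : A →ₐ[𝒪] 𝕜) :
    Function.Surjective (residue A ∘ algebraMap 𝒪 A) := fun x => by
  obtain ⟨a, rfl⟩ := residue_surjective x
  refine ⟨sec (χ a), ?_⟩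
  have := residue_eq_zero_iff (R := A) (a - algebraMap 𝒪 A (sec (χ a)))
  rw [map_sub, sub_eq_zero] at this
  exact (this.2 (sub_algebraMap_sec_mem χ a)).symm

/-- The map to `k` of a local algebra with residue field `k`. -/
theorem exists_resHom (hloc : IsLocalHom (algebraMap 𝒪 A))
    (hsurj : Function.Surjective (residue A ∘ algebraMap 𝒪 A)) :
    Nonempty (A →ₐ[𝒪] 𝕜) := by
  let e : 𝕜 ≃+* ResidueField A := RingEquiv.ofBijective
    (ResidueField.map (algebraMap 𝒪 A)) ⟨RingHom.injective _, fun x => by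
      obtain ⟨c, rfl⟩ := hsurj x
      exact ⟨residue 𝒪 c, rfl⟩⟩
  refine ⟨{ e.symm.toRingHom.comp (residue A) with commutes' := fun c => ?_ }⟩
  exact e.symm_apply_eq.2 rfl

theorem finite_residueField [Finite (ResidueField 𝒪)] (hsurj : Function.Surjective (residue A ∘ algebraMap 𝒪 A))
    (hloc : IsLocalHom (algebraMap 𝒪 A)) : Finite (ResidueField A) :=
  Finite.of_surjective (ResidueField.map (algebraMap 𝒪 A)) fun x => by
    obtain ⟨c, rfl⟩ := hsurj x
    exact ⟨residue 𝒪 c, rfl⟩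

theorem finite_quotient_maximalIdeal_pow [Finite (ResidueField 𝒪)] [IsNoetherianRing A] (χ : A →ₐ[𝒪] 𝕜) (n : ℕ) :
    Finite (A ⧸ maximalIdeal A ^ n) := by
  have : Finite (A ⧸ maximalIdeal A) :=
    finite_residueField (residue_comp_surjective χ) (isLocalHom_algebraMap χ)
  exact Ideal.finite_quotient_pow (IsNoetherian.noetherian _) n

/-- An Artinian test algebra is finite. -/
theorem finite_of_isArtinianTestAlgebra [Finite (ResidueField 𝒪)] (h : GaloisRep.IsArtinianTestAlgebra 𝒪 A) : Finite A := by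
  have := h.isArtinian
  obtain ⟨χ⟩ := exists_resHom h.isLocalHom h.residue_surjective
  obtain ⟨n, hn⟩ := IsArtinianRing.isNilpotent_jacobson_bot (R := A)
  rw [IsLocalRing.jacobson_eq_maximalIdeal ⊥ bot_ne_top, Ideal.zero_eq_bot] at hn
  have := finite_quotient_maximalIdeal_pow χ n
  rw [hn] at this
  exact Finite.of_equiv _ (RingEquiv.quotientBot A).toEquiv

end Local

theorem isUnit_of_resHom_ne_zero (χ : A →ₐ[𝒪] 𝕜) (hnil : ∀ a, χ a = 0 → IsNilpotent a) (a : A)
    (ha : χ a ≠ 0) : IsUnit a := by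
  have hc : IsUnit (sec (χ a) : 𝒪) := by
    rw [← residue_ne_zero_iff_isUnit, residue_sec]; exact ha
  have hn : IsNilpotent (a - algebraMap 𝒪 A (sec (χ a))) := hnil _ (by
    rw [map_sub, resHom_algebraMap, residue_sec, sub_self])
  have := hn.isUnit_add_right_of_commute (hc.map (algebraMap 𝒪 A)) (Commute.all _ _)
  simpa using this

theorem isLocalRing_of_resHom (χ : A →ₐ[𝒪] 𝕜) (hnil : ∀ a, χ a = 0 → IsNilpotent a) :
    IsLocalRing A := by
  have : Nontrivial A := RingHom.domain_nontrivial χ.toRingHom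
  refine IsLocalRing.of_isUnit_or_isUnit_one_sub_self fun a => ?_
  by_cases h : χ a = 0
  · exact .inr (hnil a h).isUnit_one_sub
  · exact .inl (isUnit_of_resHom_ne_zero χ hnil a h)

/-- A finite local `𝒪`-algebra with a map to `k` is an Artinian test algebra. -/
theorem isArtinianTestAlgebra_of_finite [IsLocalRing A] [Finite A] (χ : A →ₐ[𝒪] 𝕜) :
    GaloisRep.IsArtinianTestAlgebra 𝒪 A :=
  ⟨isLocalHom_algebraMap χ, residue_comp_surjective χ, inferInstance⟩

theorem exists_maximalIdeal_pow_eq_bot [IsLocalRing A] [Finite A] :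
    ∃ n : ℕ, maximalIdeal A ^ n = ⊥ := by
  obtain ⟨n, hn⟩ := IsArtinianRing.isNilpotent_jacobson_bot (R := A)
  exact ⟨n, by rwa [IsLocalRing.jacobson_eq_maximalIdeal ⊥ bot_ne_top, Ideal.zero_eq_bot] at hn⟩

theorem isNilpotent_of_resHom_eq_zero [IsLocalRing A] [Finite A] (χ : A →ₐ[𝒪] 𝕜) (a : A)
    (ha : χ a = 0) : IsNilpotent a := by
  obtain ⟨n, hn⟩ := exists_maximalIdeal_pow_eq_bot (A := A)
  refine ⟨n, ?_⟩
  have := Ideal.pow_mem_pow ((resHom_eq_zero_iff χ a).1 ha) n
  rwa [hn, Submodule.mem_bot] at this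

end FLTAgent.Deform

end
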