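import Fermat.Agent.Deform.Carayol
import Fermat.Agent.Deform.PowerSeries

/-!
# Deformations generated by their traces

`Ctx` bundles a deformation problem (an absolutely irreducible residual representation, a
deformation condition, a finite tangent space) and `Defm` is a deformation to a finite local
algebra generated by the traces.  By Carayol every deformation gives one of these
(`exists_defm_of_matRep`); one maps onto another as soon as the relations between traces allow it
(`Defm.exists_hom`), and two have a common refinement (`Defm.exists_inf`).  The tower of least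
ones is built in `Levels` and `Universal`.
-/

set_option autoImplicit false
set_option linter.unusedSectionVars false

noncomputable section

namespace FLTAgent.Deform

open IsLocalRing Matrix
open scoped TensorProduct

variable (𝒪 : Type) [CommRing 𝒪] [IsLocalRing 𝒪]

/-- The data of a deformation problem. -/
structure Ctx : Type 1 where
  ρbar : ResidualGaloisRep (ResidueField 𝒪)
  basis : Module.Basis (Fin 2) (ResidueField 𝒪) ρbar.V
  𝒟 : ∀ ⦃A : Type⦄ [CommRing A] [IsLocalRing A] [Algebra 𝒪 A], GaloisRepAdic A → Prop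
  habs : ρbar.IsAbsolutelyIrreducible
  h𝒟 : GaloisRep.IsDeformationCondition 𝒪 𝒟
  hbar : 𝒟 (GaloisRepAdic.ofResidualGaloisRep ρbar)
  hfin : GaloisRep.TangentFinite 𝒪 ρbar 𝒟

variable {𝒪}

local notation "𝕜" => ResidueField 𝒪
local notation "𝒫" => MvPolynomial GQ 𝒪

/-- The residual matrix representation. -/
def Ctx.Mbar (c : Ctx 𝒪) : MatRep (ResidueField 𝒪) :=
  matOf (GaloisRepAdic.ofResidualGaloisRep c.ρbar) c.basis

theorem Ctx.cont_Mbar (c : Ctx 𝒪) : MCont c.Mbar :=
  mcont_matOf (GaloisRepAdic.ofResidualGaloisRep c.ρbar) c.basis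

theorem Ctx.span_Mbar (c : Ctx 𝒪) :
    Submodule.span (ResidueField 𝒪) (Set.range c.Mbar) = ⊤ :=
  span_matOf_eq_top c.ρbar c.habs c.basis

section Chi

variable {A B : Type} [CommRing A] [Algebra 𝒪 A] [CommRing B] [Algebra 𝒪 B]

/-- The map from the free algebra on `GQ` given by the traces of a matrix representation. -/
def traceHom (M : MatRep A) : MvPolynomial GQ 𝒪 →ₐ[𝒪] A :=
  MvPolynomial.aeval fun g => (M g).trace

@[simp] theorem traceHom_X (M : MatRep A) (g : GQ) :
    traceHom (𝒪 := 𝒪) M (MvPolynomial.X g) = (M g).trace :=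
  MvPolynomial.aeval_X _ g

theorem trace_mapRep (φ : A →+* B) (M : MatRep A) (g : GQ) :
    (mapRep φ M g).trace = φ (M g).trace :=
  (AddMonoidHom.map_trace φ (M g)).symm

theorem traceHom_mapRep (φ : A →ₐ[𝒪] B) (M : MatRep A) :
    traceHom (𝒪 := 𝒪) (mapRep φ.toRingHom M) = φ.comp (traceHom M) :=
  MvPolynomial.algHom_ext fun g => by
    rw [traceHom_X, AlgHom.comp_apply, traceHom_X, trace_mapRep]; rfl

variable [IsLocalRing A] [IsLocalRing B]

theorem traceHom_conjRep (U : (Matrix (Fin 2) (Fin 2) A)ˣ) (M : MatRep A) :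
    traceHom (𝒪 := 𝒪) (conjRep U M) = traceHom M :=
  MvPolynomial.algHom_ext fun g => by
    rw [traceHom_X, traceHom_X, conjRep_apply, Matrix.trace_units_conj]

theorem mapRep_conjRep (φ : A →+* B) (U : (Matrix (Fin 2) (Fin 2) A)ˣ) (M : MatRep A) :
    mapRep φ (conjRep U M) =
      conjRep (Units.map (φ.mapMatrix : Matrix (Fin 2) (Fin 2) A →+* _).toMonoidHom U)
        (mapRep φ M) :=
  MonoidHom.ext fun g => by
    show φ.mapMatrix ((U : Matrix (Fin 2) (Fin 2) A) * M g * (↑U⁻¹ : Matrix (Fin 2) (Fin 2) A)) = _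
    rw [map_mul, map_mul]
    rfl

theorem mapRep_resHom_conjRep (χ : A →ₐ[𝒪] 𝕜) (U : (Matrix (Fin 2) (Fin 2) A)ˣ)
    (hU : (U : Matrix (Fin 2) (Fin 2) A).map χ = 1) (M : MatRep A) :
    mapRep χ.toRingHom (conjRep U M) = mapRep χ.toRingHom M := by
  rw [mapRep_conjRep]
  have : Units.map (χ.toRingHom.mapMatrix : Matrix (Fin 2) (Fin 2) A →+* _).toMonoidHom U = 1 :=
    Units.ext hU
  rw [this]
  exact MonoidHom.ext fun g => by rw [conjRep_apply, Units.val_one, inv_one, Units.val_one,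
    one_mul, mul_one]

end Chi

/-- A deformation to a finite test algebra which is generated by its traces. -/
structure Defm (c : Ctx 𝒪) : Type 1 where
  A : Type
  [instCommRing : CommRing A]
  [instLocal : IsLocalRing A]
  [instAlgebra : Algebra 𝒪 A]
  [instFinite : Finite A]
  res : A →ₐ[𝒪] ResidueField 𝒪
  M : MatRep A
  cont : MCont M
  norm : mapRep res.toRingHom M = c.Mbar
  ofType : c.𝒟 (toRep M cont)
  gen : Function.Surjective (traceHom (𝒪 := 𝒪) M)

attribute [instance] Defm.instCommRing Defm.instLocal Defm.instAlgebra Defm.instFinite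

variable {c : Ctx 𝒪}

/-- The trace map of a deformation. -/
abbrev Defm.chi (X : Defm c) : MvPolynomial GQ 𝒪 →ₐ[𝒪] X.A := traceHom X.M

theorem Defm.res_chi (X : Defm c) : X.res.comp X.chi = traceHom c.Mbar := by
  rw [Defm.chi, ← traceHom_mapRep, X.norm]

theorem exists_finite_level {A : Type} [CommRing A] [IsLocalRing A] [Finite A] {M : MatRep A}
    (h : MCont M) :
    ∃ L : IntermediateField ℚ (AlgebraicClosure ℚ), FiniteDimensional ℚ L ∧
      ∀ σ : GQ, (∀ x ∈ L, σ x = x) → M σ = 1 := by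
  obtain ⟨n, hn⟩ := exists_maximalIdeal_pow_eq_bot (A := A)
  obtain ⟨L, hL, h1⟩ := h n
  refine ⟨L, hL, fun σ hσ => Matrix.ext fun i j => sub_eq_zero.1 ?_⟩
  have := h1 σ hσ i j
  rwa [hn, Submodule.mem_bot, Matrix.sub_apply] at this

theorem mcont_of_finite_level {A : Type} [CommRing A] [IsLocalRing A] {M : MatRep A}
    (h : ∃ L : IntermediateField ℚ (AlgebraicClosure ℚ), FiniteDimensional ℚ L ∧
      ∀ σ : GQ, (∀ x ∈ L, σ x = x) → M σ = 1) : MCont M := fun n => by
  obtain ⟨L, hL, h1⟩ := h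
  exact ⟨L, hL, fun σ hσ i j => by rw [h1 σ hσ, sub_self]; exact zero_mem _⟩

section Descent

variable {A : Type} [CommRing A] [IsLocalRing A] [Algebra 𝒪 A] [Finite A]

theorem exists_defm_of_matRep (res : A →ₐ[𝒪] 𝕜) (M : MatRep A) (hc : MCont M)
    (hn : mapRep res.toRingHom M = c.Mbar) (hD : c.𝒟 (toRep M hc)) :
    ∃ X : Defm c, ∀ p, X.chi p = 0 ↔ traceHom (𝒪 := 𝒪) M p = 0 := by
  classical
  set A₀ : Subalgebra 𝒪 A := (traceHom (𝒪 := 𝒪) M).range with hA₀
  obtain ⟨U, hU, hmem⟩ := exists_conjRep_mem res A₀ M (by rw [hn]; exact c.span_Mbar)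
    fun g => ⟨MvPolynomial.X g, traceHom_X M g⟩
  let res₀ : A₀ →ₐ[𝒪] 𝕜 := res.comp A₀.val
  have hnil : ∀ a : A₀, res₀ a = 0 → IsNilpotent a := fun a ha => by
    obtain ⟨n, hn⟩ := isNilpotent_of_resHom_eq_zero res (a : A) ha
    exact ⟨n, Subtype.ext (by simpa using hn)⟩
  have : IsLocalRing A₀ := isLocalRing_of_resHom res₀ hnil
  have hinj : Function.Injective fun X : Matrix (Fin 2) (Fin 2) A₀ => X.map A₀.val :=
    fun X Y h => Matrix.ext fun i j => Subtype.ext (congrFun (congrFun h i) j)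
  let M₀' : GQ → Matrix (Fin 2) (Fin 2) A₀ := fun g => Matrix.of fun i j => ⟨_, hmem g i j⟩
  have hmap : ∀ g, (M₀' g).map A₀.val = conjRep U M g := fun g => rfl
  let M₀ : MatRep A₀ :=
    { toFun := M₀'
      map_one' := hinj (by
        show (M₀' 1).map A₀.val = Matrix.map 1 A₀.val
        rw [hmap, map_one, Matrix.map_one _ (map_zero _) (map_one _)])
      map_mul' := fun g h => hinj (by
        show (M₀' (g * h)).map A₀.val = (M₀' g * M₀' h).map A₀.val
        rw [hmap, Matrix.map_mul, hmap, hmap, map_mul]) }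
  have hmap' : mapRep A₀.val.toRingHom M₀ = conjRep U M := MonoidHom.ext hmap
  have hc₀ : MCont M₀ := by
    refine mcont_of_finite_level ?_
    obtain ⟨L, hL, h1⟩ := exists_finite_level (hc.conj U)
    refine ⟨L, hL, fun σ hσ => hinj ?_⟩
    show (M₀' σ).map A₀.val = Matrix.map 1 A₀.val
    rw [hmap, h1 σ hσ, Matrix.map_one _ (map_zero _) (map_one _)]
  have hn₀ : mapRep res₀.toRingHom M₀ = c.Mbar := by
    rw [show res₀.toRingHom = res.toRingHom.comp A₀.val.toRingHom from rfl, ← mapRep_mapRep, hmap',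
      mapRep_resHom_conjRep res U hU, hn]
  have hloc : IsLocalHom (A₀.val : A₀ →+* A) := isLocalHom_of_resHom res₀ res _
  have hD₀ : c.𝒟 (toRep M₀ hc₀) := by
    refine c.h𝒟.of_baseChangeAlong_injective (isArtinianTestAlgebra_of_finite res₀)
      (isArtinianTestAlgebra_of_finite res) A₀.val hloc Subtype.val_injective ?_
    exact c.h𝒟.of_isEquiv (isArtinianTestAlgebra_of_finite res)
      ((toRep_baseChangeAlong _ hloc M₀ hc₀ _ (hc.conj U) hmap').elim fun e => ⟨e.symm⟩)
      (c.h𝒟.of_isEquiv (isArtinianTestAlgebra_of_finite res) (toRep_conj U hc (hc.conj U) rfl) hD)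
  have hchi : A₀.val.comp (traceHom (𝒪 := 𝒪) M₀) = traceHom M := by
    rw [← traceHom_mapRep, hmap', traceHom_conjRep]
  have hgen : Function.Surjective (traceHom (𝒪 := 𝒪) M₀) := by
    rintro ⟨a, p, rfl⟩
    exact ⟨p, Subtype.ext (AlgHom.congr_fun hchi p)⟩
  refine ⟨⟨A₀, res₀, M₀, hc₀, hn₀, hD₀, hgen⟩, fun p => ?_⟩
  rw [← hchi, AlgHom.comp_apply]
  exact (map_eq_zero_iff A₀.val Subtype.val_injective).symm

end Descent

/-- The image of a deformation under a surjection of test algebras. -/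
def Defm.map (X : Defm c) {B : Type} [CommRing B] [IsLocalRing B] [Algebra 𝒪 B] [Finite B]
    (res : B →ₐ[𝒪] ResidueField 𝒪) (φ : X.A →ₐ[𝒪] B) (hφ : Function.Surjective φ) : Defm c where
  A := B
  res := res
  M := mapRep φ.toRingHom X.M
  cont := X.cont.map _ (isLocalHom_of_resHom X.res res φ)
  norm := by
    rw [mapRep_mapRep, show res.toRingHom.comp φ.toRingHom = X.res.toRingHom from
      congrArg AlgHom.toRingHom (resHom_comp X.res res φ), X.norm]
  ofType := c.h𝒟.of_isEquiv (isArtinianTestAlgebra_of_finite res)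
    (toRep_baseChangeAlong φ.toRingHom (isLocalHom_of_resHom X.res res φ) X.M X.cont _ _ rfl)
    (c.h𝒟.baseChangeAlong (isArtinianTestAlgebra_of_finite X.res)
      (isArtinianTestAlgebra_of_finite res) φ (isLocalHom_of_resHom X.res res φ) X.ofType)
  gen := by rw [traceHom_mapRep]; exact hφ.comp X.gen

theorem Defm.chi_map (X : Defm c) {B : Type} [CommRing B] [IsLocalRing B] [Algebra 𝒪 B] [Finite B]
    (res : B →ₐ[𝒪] ResidueField 𝒪) (φ : X.A →ₐ[𝒪] B) (hφ : Function.Surjective φ)
    (p : MvPolynomial GQ 𝒪) : (X.map res φ hφ).chi p = φ (X.chi p) :=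
  AlgHom.congr_fun (traceHom_mapRep φ X.M) p

/-- The factorisation of trace maps. -/
theorem Defm.exists_hom (X Y : Defm c) (h : ∀ p, X.chi p = 0 → Y.chi p = 0) :
    ∃ ψ : X.A →ₐ[𝒪] Y.A, (∀ p, ψ (X.chi p) = Y.chi p) ∧ Function.Surjective ψ := by
  let e := Ideal.quotientKerAlgEquivOfSurjective X.gen
  let q := Ideal.Quotient.liftₐ (RingHom.ker (traceHom (𝒪 := 𝒪) X.M)) Y.chi fun p hp => h p hp
  have he : ∀ p, (q.comp e.symm.toAlgHom) (X.chi p) = Y.chi p := by
    intro p
    show q (e.symm (X.chi p)) = Y.chi p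
    rw [show X.chi p = e (Ideal.Quotient.mk _ p) from rfl, AlgEquiv.symm_apply_apply]
    rfl
  refine ⟨_, he, fun y => ?_⟩
  obtain ⟨p, rfl⟩ := Y.gen y
  exact ⟨_, he p⟩

theorem Defm.exists_inf [Finite (ResidueField 𝒪)] (X Y : Defm c) :
    ∃ Z : Defm c, ∀ p, Z.chi p = 0 ↔ X.chi p = 0 ∧ Y.chi p = 0 := by
  let P : Subalgebra 𝒪 (X.A × Y.A) := AlgHom.equalizer
    (X.res.comp (AlgHom.fst 𝒪 X.A Y.A)) (Y.res.comp (AlgHom.snd 𝒪 X.A Y.A))
  let pA : P →ₐ[𝒪] X.A := (AlgHom.fst 𝒪 X.A Y.A).comp P.val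
  let pB : P →ₐ[𝒪] Y.A := (AlgHom.snd 𝒪 X.A Y.A).comp P.val
  let res : P →ₐ[𝒪] 𝕜 := X.res.comp pA
  have hcomm : X.res.comp pA = Y.res.comp pB := AlgHom.ext fun x => x.2
  have hnil : ∀ a : P, res a = 0 → IsNilpotent a := fun a ha => by
    have ha' : Y.res (pB a) = 0 := by rw [← ha]; exact (AlgHom.congr_fun hcomm a).symm
    obtain ⟨m, hm⟩ := isNilpotent_of_resHom_eq_zero X.res (pA a) ha
    obtain ⟨n, hn⟩ := isNilpotent_of_resHom_eq_zero Y.res (pB a) ha'
    refine ⟨m + n, Subtype.ext (Prod.ext ?_ ?_)⟩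
    · show pA (a ^ (m + n)) = 0
      rw [map_pow, pow_add, hm, zero_mul]
    · show pB (a ^ (m + n)) = 0
      rw [map_pow, pow_add, hn, mul_zero]
  have : IsLocalRing P := isLocalRing_of_resHom res hnil
  have hmem : ∀ g i j, ((X.M g i j, Y.M g i j) : X.A × Y.A) ∈ P := fun g i j => by
    have h1 := congrFun (congrFun (DFunLike.congr_fun X.norm g) i) j
    have h2 := congrFun (congrFun (DFunLike.congr_fun Y.norm g) i) j
    exact h1.trans h2.symm
  have hinj : ∀ S T : Matrix (Fin 2) (Fin 2) P,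
      S.map pA = T.map pA → S.map pB = T.map pB → S = T := fun S T h1 h2 =>
    Matrix.ext fun i j => Subtype.ext
      (Prod.ext (congrFun (congrFun h1 i) j) (congrFun (congrFun h2 i) j))
  let M' : GQ → Matrix (Fin 2) (Fin 2) P := fun g => Matrix.of fun i j => ⟨_, hmem g i j⟩
  have hA : ∀ g, (M' g).map pA = X.M g := fun g => rfl
  have hB : ∀ g, (M' g).map pB = Y.M g := fun g => rfl
  let M : MatRep P :=
    { toFun := M'
      map_one' := hinj _ _
        (by rw [hA, map_one, Matrix.map_one _ (map_zero _) (map_one _)])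
        (by rw [hB, map_one, Matrix.map_one _ (map_zero _) (map_one _)])
      map_mul' := fun g h => hinj _ _
        (by rw [hA, Matrix.map_mul, hA, hA, map_mul])
        (by rw [hB, Matrix.map_mul, hB, hB, map_mul]) }
  have hMA : mapRep pA.toRingHom M = X.M := MonoidHom.ext hA
  have hMB : mapRep pB.toRingHom M = Y.M := MonoidHom.ext hB
  have hc : MCont M := by
    refine mcont_of_finite_level ?_
    obtain ⟨L, hL, h1⟩ := exists_finite_level X.cont
    obtain ⟨L', hL', h2⟩ := exists_finite_level Y.cont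
    refine ⟨L ⊔ L', inferInstance, fun σ hσ => hinj _ _ ?_ ?_⟩
    · show (M' σ).map pA = _
      rw [hA, h1 σ (fun x hx => hσ x (le_sup_left (b := L') hx)),
        Matrix.map_one _ (map_zero _) (map_one _)]
    · show (M' σ).map pB = _
      rw [hB, h2 σ (fun x hx => hσ x (le_sup_right (a := L) hx)),
        Matrix.map_one _ (map_zero _) (map_one _)]
  have hn : mapRep res.toRingHom M = c.Mbar := by
    rw [show res.toRingHom = X.res.toRingHom.comp pA.toRingHom from rfl, ← mapRep_mapRep, hMA, X.norm]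
  have hPA : IsLocalHom (pA : P →+* X.A) := isLocalHom_of_resHom res X.res pA
  have hPB : IsLocalHom (pB : P →+* Y.A) := isLocalHom_of_resHom res Y.res pB
  have hk : GaloisRep.IsArtinianTestAlgebra 𝒪 𝕜 := isArtinianTestAlgebra_of_finite (AlgHom.id 𝒪 𝕜)
  have hD : c.𝒟 (toRep M hc) := by
    refine c.h𝒟.of_fibreProduct (isArtinianTestAlgebra_of_finite X.res)
      (isArtinianTestAlgebra_of_finite Y.res) hk (isArtinianTestAlgebra_of_finite res)
      X.res Y.res pA pB hPA hPB hcomm (fun x y h => Subtype.ext h)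
      (fun a b h => ⟨⟨(a, b), h⟩, rfl, rfl⟩) ?_ ?_
    · exact c.h𝒟.of_isEquiv (isArtinianTestAlgebra_of_finite X.res)
        ((toRep_baseChangeAlong _ hPA M hc _ X.cont hMA).elim fun e => ⟨e.symm⟩) X.ofType
    · exact c.h𝒟.of_isEquiv (isArtinianTestAlgebra_of_finite Y.res)
        ((toRep_baseChangeAlong _ hPB M hc _ Y.cont hMB).elim fun e => ⟨e.symm⟩) Y.ofType
  obtain ⟨Z, hZ⟩ := exists_defm_of_matRep res M hc hn hD
  refine ⟨Z, fun p => (hZ p).trans ?_⟩
  have e1 : X.chi p = pA (traceHom M p) := by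
    rw [← AlgHom.comp_apply, ← traceHom_mapRep, hMA]
  have e2 : Y.chi p = pB (traceHom M p) := by
    rw [← AlgHom.comp_apply, ← traceHom_mapRep, hMB]
  rw [e1, e2]
  exact ⟨fun h => by rw [h, map_zero, map_zero]; exact ⟨rfl, rfl⟩,
    fun h => Subtype.ext (Prod.ext h.1 h.2)⟩

end FLTAgent.Deform

end
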