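import Fermat.Agent.Deform.Limit
import Fermat.Prelude.Def_GaloisRep_DeformationRingData

/-!
# The universal deformation

`nonempty_deformationRingData_ctx`: every deformation problem `Ctx` (absolutely irreducible
residual representation, deformation condition, finite tangent space) has deformation ring data.
The ring is the limit (`TowerLimit`) of a compatible tower of least deformations of bounded level
(`exists_tower`); the classifying map of a deformation factors through a level, and is unique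
because the traces generate.
-/

set_option autoImplicit false
set_option linter.unusedSectionVars false

noncomputable section

namespace FLTAgent.Deform

open IsLocalRing Matrix
open scoped TensorProduct

section Factor

variable {𝒪 A B C : Type} [CommRing 𝒪] [CommRing A] [Algebra 𝒪 A] [CommRing B] [Algebra 𝒪 B]
  [CommRing C] [Algebra 𝒪 C]

theorem exists_algHom_factor (f : A →ₐ[𝒪] B) (hf : Function.Surjective f) (g : A →ₐ[𝒪] C)
    (h : ∀ a, f a = 0 → g a = 0) : ∃ k : B →ₐ[𝒪] C, ∀ a, k (f a) = g a := by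
  let e := Ideal.quotientKerAlgEquivOfSurjective hf
  let q := Ideal.Quotient.liftₐ (RingHom.ker f) g fun a ha => h a ha
  refine ⟨q.comp e.symm.toAlgHom, fun a => ?_⟩
  show q (e.symm (f a)) = g a
  rw [show f a = e (Ideal.Quotient.mk _ a) from rfl, AlgEquiv.symm_apply_apply]
  rfl

end Factor

section Residue

variable {𝒪 : Type} [CommRing 𝒪] [IsLocalRing 𝒪] {A : Type} [CommRing A] [IsLocalRing A]
  [Algebra 𝒪 A] [IsLocalHom (algebraMap 𝒪 A)]

theorem residue_eq_map_resHom (χ : A →ₐ[𝒪] ResidueField 𝒪) (a : A) :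
    residue A a = ResidueField.map (algebraMap 𝒪 A) (χ a) := by
  conv_rhs => rw [← residue_sec (χ a)]
  rw [ResidueField.map_residue, ← sub_eq_zero, ← map_sub, residue_eq_zero_iff]
  exact sub_algebraMap_sec_mem χ a

theorem exists_basis_normalised (c : Ctx 𝒪) (χ : A →ₐ[𝒪] ResidueField 𝒪) (ρ : GaloisRepAdic A)
    (h : ρ.residual.IsEquiv (c.ρbar.baseChangeAlong (ResidueField.map (algebraMap 𝒪 A)))) :
    ∃ b : Module.Basis (Fin 2) A ρ.V, mapRep χ.toRingHom (matOf ρ b) = c.Mbar := by
  classical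
  let ι := ResidueField.map (algebraMap 𝒪 A)
  let := ι.toAlgebra
  obtain ⟨e⟩ := h
  let b₀ : Module.Basis (Fin 2) (ResidueField A) (c.ρbar.baseChangeAlong ι).V :=
    Algebra.TensorProduct.basis (ResidueField A) c.basis
  let bk : Module.Basis (Fin 2) (ResidueField A) (ResidueField A ⊗[A] ρ.V) :=
    b₀.map e.toLinearEquiv.symm
  have hv : ∀ i, ∃ v : ρ.V, (1 : ResidueField A) ⊗ₜ[A] v = bk i := fun i =>
    TensorProduct.mk_surjective A ρ.V (ResidueField A) residue_surjective (bk i)
  choose v hv using hv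
  have hspan : Submodule.span A (Set.range v) = ⊤ :=
    IsLocalRing.span_eq_top_of_tmul_eq_basis v bk hv
  let b : Module.Basis (Fin 2) A ρ.V := basisOfTopLeSpanOfCardEqFinrank v hspan.ge
    (by rw [Fintype.card_fin, ρ.finrank_eq])
  refine ⟨b, MonoidHom.ext fun g => Matrix.ext fun i j => ι.injective ?_⟩
  rw [mapRep_apply, Matrix.map_apply]
  show ι (χ (matOf ρ b g i j)) = _
  rw [← residue_eq_map_resHom χ]
  have hb : Algebra.TensorProduct.basis (ResidueField A) b = bk := Module.Basis.eq_of_apply_eq fun i => by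
    rw [Algebra.TensorProduct.basis_apply, coe_basisOfTopLeSpanOfCardEqFinrank, hv]
  have h1 : (matOf ρ b g).map (residue A) =
      LinearMap.toMatrix bk bk ((ρ.ρ g).baseChange (ResidueField A)) := by
    rw [← hb, LinearMap.toMatrix_baseChange]; rfl
  have h2 : (c.Mbar g).map ι =
      LinearMap.toMatrix b₀ b₀ ((c.ρbar.baseChangeAlong ι).ρ g) :=
    (LinearMap.toMatrix_baseChange (ResidueField A) (c.ρbar.ρ g) c.basis c.basis).symm
  have h3 : LinearMap.toMatrix bk bk ((ρ.ρ g).baseChange (ResidueField A)) =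
      LinearMap.toMatrix b₀ b₀ ((c.ρbar.baseChangeAlong ι).ρ g) := by
    ext r s
    rw [LinearMap.toMatrix_apply, LinearMap.toMatrix_apply]
    simp only [bk, Module.Basis.map_repr, Module.Basis.map_apply, LinearEquiv.trans_apply]
    have := e.map_apply g (e.toLinearEquiv.symm (b₀ s))
    rw [LinearEquiv.apply_symm_apply] at this
    exact congrArg (fun y => b₀.repr y r) this
  exact congrFun (congrFun ((h1.trans h3).trans h2.symm) i) j

end Residue

variable {𝒪 : Type} [CommRing 𝒪] [IsDomain 𝒪] [IsDiscreteValuationRing 𝒪]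
  [IsAdicComplete (maximalIdeal 𝒪) 𝒪] [Finite (ResidueField 𝒪)]

/-- A compatible tower of least deformations. -/
theorem exists_tower (c : Ctx 𝒪) :
    ∃ (X : ℕ → Defm c) (ψ : ∀ n, (X (n + 1)).A →ₐ[𝒪] (X n).A), (∀ n, (X n).IsLeast n) ∧
      (∀ n, mapRep (ψ n).toRingHom (X (n + 1)).M = (X n).M) ∧
      (∀ n p, ψ n ((X (n + 1)).chi p) = (X n).chi p) ∧
      ∀ n a, ψ n a = 0 → a ∈ maximalIdeal (X (n + 1)).A ^ (n + 1) := by
  choose F Fψ hF1 hF2 hF3 _ hF5 using
    fun (n : ℕ) (X : {X : Defm c // X.IsLeast n}) => exists_succ X.1 n X.2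
  obtain ⟨X₀, hX₀⟩ := exists_isLeast c 0
  let S : ∀ n, {X : Defm c // X.IsLeast n} := fun n =>
    Nat.rec ⟨X₀, hX₀⟩ (fun k P => ⟨F k P, hF1 k P⟩) n
  exact ⟨fun n => (S n).1, fun n => Fψ n (S n), fun n => (S n).2, fun n => hF2 n (S n),
    fun n p => hF3 n (S n) p, fun n a => hF5 n (S n) a⟩

/-- **The universal deformation ring** of a deformation problem exists. -/
theorem nonempty_deformationRingData_ctx (c : Ctx 𝒪) :
    Nonempty (GaloisRep.DeformationRingData 𝒪 c.ρbar c.𝒟) := by
  classical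
  obtain ⟨X, ψ, hleast, hψM, hψchi, hψker⟩ := exists_tower c
  obtain ⟨σ, _, T, -, hgen⟩ := exists_cotangent_generators c
  obtain ⟨L⟩ := nonempty_towerLimit (A := fun n => (X n).A) ψ (fun n => (X n).res)
    (fun n => (hleast n).1) hψker (fun n i => (X n).chi (T i)) (fun n i => hψchi n (T i))
    (fun n => hgen (X n))
  have hentry : ∀ g i j, ∃ r : L.R, ∀ n, L.π n r = (X n).M g i j := fun g i j =>
    L.exists_lift (fun n => (X n).M g i j) fun n =>
      congrFun (congrFun (DFunLike.congr_fun (hψM n) g) i) j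
  choose r hr using hentry
  let MR' : GQ → Matrix (Fin 2) (Fin 2) L.R := fun g => Matrix.of (r g)
  have hMR' : ∀ n g, (MR' g).map (L.π n) = (X n).M g := fun n g =>
    Matrix.ext fun i j => hr g i j n
  have hinj : ∀ S T : Matrix (Fin 2) (Fin 2) L.R,
      (∀ n, S.map (L.π n) = T.map (L.π n)) → S = T := fun S T h =>
    Matrix.ext fun i j => L.ext_of_forall fun n => congrFun (congrFun (h n) i) j
  let MR : MatRep L.R :=
    { toFun := MR'
      map_one' := hinj _ _ fun n => by
        rw [hMR', map_one, Matrix.map_one _ (map_zero _) (map_one _)]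
      map_mul' := fun g h => hinj _ _ fun n => by
        rw [hMR', Matrix.map_mul, hMR', hMR', map_mul] }
  have hMR : ∀ n, mapRep (L.π n).toRingHom MR = (X n).M := fun n => MonoidHom.ext (hMR' n)
  have hchiR : ∀ n p, L.π n (traceHom (𝒪 := 𝒪) MR p) = (X n).chi p := fun n p => by
    rw [← AlgHom.comp_apply, ← traceHom_mapRep, hMR]
  have hcont : MCont MR := fun n => by
    obtain ⟨F, hF, h1⟩ := exists_finite_level (X n).cont
    refine ⟨F, hF, fun σ hσ i j => Ideal.pow_le_pow_right (Nat.le_succ n)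
      ((L.π_eq_zero_iff n _).1 ?_)⟩
    have : ((MR σ - 1).map (L.π n)) i j = 0 := by
      rw [Matrix.map_sub _ (map_sub (L.π n)), Matrix.map_one _ (map_zero _) (map_one _),
        show (MR σ).map (L.π n) = 1 from (hMR' n σ).trans (h1 σ hσ), sub_self]
      rfl
    exact this
  have hlocR : IsLocalHom (algebraMap 𝒪 L.R) := isLocalHom_algebraMap L.res
  have hnorm : mapRep L.res.toRingHom MR = c.Mbar := by
    rw [show L.res.toRingHom = (X 0).res.toRingHom.comp (L.π 0).toRingHom from
      congrArg AlgHom.toRingHom (resHom_comp L.res (X 0).res (L.π 0)).symm,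
      ← mapRep_mapRep, hMR, (X 0).norm]
  refine ⟨{
    R := L.R
    residue_surjective := residue_comp_surjective L.res
    absIrr := c.habs
    ρ := toRep MR hcont
    isOfType := ?_
    residual_isEquiv := ?_
    universal := ?_ }⟩
  · refine (c.h𝒟.iff_forall_surjective hlocR (residue_comp_surjective L.res) _).2 ?_
    intro B _ _ _ hB q hq hqs
    have := finite_of_isArtinianTestAlgebra hB
    obtain ⟨resB⟩ := exists_resHom hB.isLocalHom hB.residue_surjective
    obtain ⟨N, hN⟩ := exists_maximalIdeal_pow_eq_bot (A := B)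
    obtain ⟨f, hf⟩ := exists_algHom_factor (L.π N) (L.π_surjective N) q fun a ha => by
      have h := map_mem_maximalIdeal_pow (q : L.R →+* B) hq
        (Ideal.pow_le_pow_right (Nat.le_succ N) ((L.π_eq_zero_iff N a).1 ha))
      rw [hN, Submodule.mem_bot] at h
      exact h
    have hfq : f.comp (L.π N) = q := AlgHom.ext hf
    have hfloc := isLocalHom_of_resHom (X N).res resB f
    have hc := hcont.map (q : L.R →+* B) hq
    have e : mapRep f.toRingHom (X N).M = mapRep (q : L.R →+* B) MR := by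
      rw [← hMR N, mapRep_mapRep, ← hfq]; rfl
    have hD1 : c.𝒟 (toRep (mapRep (q : L.R →+* B) MR) hc) :=
      c.h𝒟.of_isEquiv hB (toRep_baseChangeAlong _ hfloc _ (X N).cont _ hc e)
        (c.h𝒟.baseChangeAlong (isArtinianTestAlgebra_of_finite (X N).res) hB f hfloc (X N).ofType)
    exact c.h𝒟.of_isEquiv hB
      ((toRep_baseChangeAlong _ hq MR hcont _ hc rfl).elim fun e => ⟨e.symm⟩) hD1
  · refine residual_isEquiv_of_matOf c _ (stdBasis _ hcont) _ fun g => ?_
    rw [matOf_toRep, ← hnorm, mapRep_apply, Matrix.map_map]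
    ext i j
    exact residue_eq_map_resHom L.res _
  intro A _ _ _ _ _ hloc hsurj ρA hDA hresA
  obtain ⟨χ⟩ := exists_resHom (A := A) hloc hsurj
  obtain ⟨b, hb⟩ := exists_basis_normalised c χ ρA hresA
  have hker : ∀ n p, (X n).chi p = 0 →
      traceHom (𝒪 := 𝒪) (matOf ρA b) p ∈ maximalIdeal A ^ (n + 1) := by
    intro n p hp
    set J := maximalIdeal A ^ (n + 1) with hJ
    have hJm : J ≤ maximalIdeal A := Ideal.pow_le_self (Nat.succ_ne_zero n)
    have hJtop : J ≠ ⊤ := fun h =>
      (Ideal.IsMaximal.ne_top (inferInstance : (maximalIdeal A).IsMaximal))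
        (top_le_iff.1 (h ▸ hJm))
    have : Nontrivial (A ⧸ J) := Ideal.Quotient.nontrivial_iff.2 hJtop
    have : IsLocalRing (A ⧸ J) :=
      IsLocalRing.of_surjective' (Ideal.Quotient.mk J) Ideal.Quotient.mk_surjective
    have : Finite (A ⧸ J) := finite_quotient_maximalIdeal_pow χ (n + 1)
    let χJ : A ⧸ J →ₐ[𝒪] ResidueField 𝒪 := Ideal.Quotient.liftₐ J χ fun a ha =>
      (resHom_eq_zero_iff χ a).2 (hJm ha)
    let mk := Ideal.Quotient.mkₐ 𝒪 J
    have hmk : IsLocalHom (mk : A →+* A ⧸ J) := isLocalHom_of_resHom χ χJ mk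
    have hJtest := isArtinianTestAlgebra_of_finite χJ
    have hD1 := (c.h𝒟.iff_forall_surjective hloc hsurj ρA).1 hDA hJtest mk hmk
      (Ideal.Quotient.mkₐ_surjective 𝒪 J)
    have hc := (mcont_matOf ρA b).map (mk : A →+* A ⧸ J) hmk
    have hD2 : c.𝒟 (toRep (mapRep (mk : A →+* A ⧸ J) (matOf ρA b)) hc) :=
      c.h𝒟.of_isEquiv hJtest (isEquiv_toRep_matOf _ (bcBasis _ hmk ρA b) _ hc
        (matOf_baseChangeAlong _ hmk ρA b)) hD1
    have hn : mapRep χJ.toRingHom (mapRep (mk : A →+* A ⧸ J) (matOf ρA b)) = c.Mbar := by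
      rw [mapRep_mapRep, ← hb]; rfl
    obtain ⟨Z, hZ⟩ := exists_defm_of_matRep χJ _ hc hn hD2
    obtain ⟨f, hf⟩ := exists_algHom_factor Z.chi Z.gen
      (traceHom (mapRep (mk : A →+* A ⧸ J) (matOf ρA b))) fun a ha => (hZ a).1 ha
    have hZl : Z.HasLevel n := by
      unfold Defm.HasLevel
      rw [eq_bot_iff]
      intro z hz
      obtain ⟨q, rfl⟩ := Z.gen z
      have h := map_mem_maximalIdeal_pow f.toRingHom (isLocalHom_of_resHom Z.res χJ f) hz
      have hle : maximalIdeal (A ⧸ J) ^ (n + 1) = ⊥ := by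
        rw [← IsLocalRing.map_maximalIdeal_of_surjective (Ideal.Quotient.mk J)
          Ideal.Quotient.mk_surjective, ← Ideal.map_pow, ← hJ, Ideal.map_quotient_self]
      rw [hle, Submodule.mem_bot] at h
      rw [Submodule.mem_bot]
      exact (hZ q).2 (((hf q).symm.trans h))
    have h0 := (hZ p).1 ((hleast n).2 Z hZl p hp)
    have h1 : mk (traceHom (matOf ρA b) p) = 0 := by
      rw [← AlgHom.comp_apply, ← traceHom_mapRep]
      exact h0
    exact Ideal.Quotient.eq_zero_iff_mem.1 h1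
  set tA := traceHom (𝒪 := 𝒪) (matOf ρA b) with htA
  let Rel : L.R → A → Prop := fun r a =>
    ∀ n p, L.π n r = (X n).chi p → a - tA p ∈ maximalIdeal A ^ (n + 1)
  have rel_unique : ∀ r a a', Rel r a → Rel r a' → a = a' := by
    intro r a a' h h'
    refine sub_eq_zero.1 ((inferInstance : IsHausdorff (maximalIdeal A) A).haus' _ fun n => ?_)
    rw [SModEq.sub_mem, sub_zero, smul_eq_mul, Ideal.mul_top]
    obtain ⟨p, hp⟩ := (X n).gen (L.π n r)
    have := sub_mem (h n p hp.symm) (h' n p hp.symm)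
    rw [sub_sub_sub_cancel_right] at this
    exact Ideal.pow_le_pow_right (Nat.le_succ n) this
  have rel_of : ∀ r a, (∀ n, ∃ p, L.π n r = (X n).chi p ∧ a - tA p ∈ maximalIdeal A ^ (n + 1)) →
      Rel r a := by
    intro r a h n p hp
    obtain ⟨q, hq, ha⟩ := h n
    have h1 : tA (q - p) ∈ maximalIdeal A ^ (n + 1) :=
      hker n _ (by rw [map_sub, ← hq, ← hp, sub_self])
    rw [map_sub] at h1
    have := add_mem ha h1
    rwa [sub_add_sub_cancel] at this
  have rel_exists : ∀ r, ∃ a, Rel r a := by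
    intro r
    choose p hp using fun n => (X n).gen (L.π n r)
    have hstep : ∀ n, tA (p n) - tA (p (n + 1)) ∈ maximalIdeal A ^ (n + 1) := fun n => by
      rw [← map_sub]
      refine hker n _ ?_
      rw [map_sub, ← hψchi n (p (n + 1)), hp, hp, L.π_compat, sub_self]
    have hC : ∀ {m n : ℕ}, m ≤ n → tA (p m) - tA (p n) ∈ maximalIdeal A ^ (m + 1) := by
      intro m n hmn
      induction hmn with
      | refl => rw [sub_self]; exact zero_mem _
      | @step n hmn ih =>
        rw [← sub_add_sub_cancel _ (tA (p n))]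
        exact add_mem ih (Ideal.pow_le_pow_right (Nat.succ_le_succ hmn) (hstep n))
    obtain ⟨a, ha⟩ := IsPrecomplete.prec' (I := maximalIdeal A) (fun n => tA (p n))
      (fun {m n} hmn => by
        rw [SModEq.sub_mem, smul_eq_mul, Ideal.mul_top]
        exact Ideal.pow_le_pow_right (Nat.le_succ m) (hC hmn))
    simp only [SModEq.sub_mem, smul_eq_mul, Ideal.mul_top] at ha
    refine ⟨a, rel_of r a fun n => ⟨p n, (hp n).symm, ?_⟩⟩
    rw [← neg_sub]
    refine neg_mem ?_
    rw [← sub_add_sub_cancel _ (tA (p (n + 1)))]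
    exact add_mem (hC (Nat.le_succ n)) (ha (n + 1))
  have rel_trace : ∀ q, Rel (traceHom (𝒪 := 𝒪) MR q) (tA q) := fun q =>
    rel_of _ _ fun n => ⟨q, hchiR n q, by rw [sub_self]; exact zero_mem _⟩
  choose φ hφ using rel_exists
  have hadd : ∀ r s, φ (r + s) = φ r + φ s := fun r s => by
    refine rel_unique _ _ _ (hφ _) (rel_of _ _ fun n => ?_)
    obtain ⟨p, hp⟩ := (X n).gen (L.π n r)
    obtain ⟨q, hq⟩ := (X n).gen (L.π n s)
    refine ⟨p + q, by rw [map_add, map_add, hp, hq], ?_⟩
    rw [map_add, add_sub_add_comm]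
    exact add_mem (hφ r n p hp.symm) (hφ s n q hq.symm)
  have hmul : ∀ r s, φ (r * s) = φ r * φ s := fun r s => by
    refine rel_unique _ _ _ (hφ _) (rel_of _ _ fun n => ?_)
    obtain ⟨p, hp⟩ := (X n).gen (L.π n r)
    obtain ⟨q, hq⟩ := (X n).gen (L.π n s)
    refine ⟨p * q, by rw [map_mul, map_mul, hp, hq], ?_⟩
    rw [map_mul, show φ r * φ s - tA p * tA q =
      (φ r - tA p) * φ s + tA p * (φ s - tA q) by ring]
    exact add_mem (Ideal.mul_mem_right _ _ (hφ r n p hp.symm))
      (Ideal.mul_mem_left _ _ (hφ s n q hq.symm))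
  have halg : ∀ a : 𝒪, φ (algebraMap 𝒪 L.R a) = algebraMap 𝒪 A a := fun a => by
    refine rel_unique _ _ _ (hφ _) (rel_of _ _ fun n => ⟨MvPolynomial.C a, ?_, ?_⟩)
    · rw [AlgHom.commutes, ← MvPolynomial.algebraMap_eq, AlgHom.commutes]
    · rw [← MvPolynomial.algebraMap_eq, AlgHom.commutes, sub_self]; exact zero_mem _
  let Φ : L.R →ₐ[𝒪] A :=
    { toFun := φ
      map_one' := by rw [← map_one (algebraMap 𝒪 L.R), halg, map_one]
      map_mul' := hmul
      map_zero' := by rw [← map_zero (algebraMap 𝒪 L.R), halg, map_zero]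
      map_add' := hadd
      commutes' := halg }
  have hΦloc : IsLocalHom (Φ : L.R →+* A) := isLocalHom_of_resHom L.res χ Φ
  refine ⟨Φ, ⟨hΦloc, ?_⟩, ?_⟩
  · have hres : mapRep χ.toRingHom (mapRep Φ.toRingHom MR) = c.Mbar := by
      rw [mapRep_mapRep, show χ.toRingHom.comp Φ.toRingHom = L.res.toRingHom from
        congrArg AlgHom.toRingHom (resHom_comp L.res χ Φ), hnorm]
    obtain ⟨U, -, hU⟩ := exists_conjRep_eq χ (mapRep Φ.toRingHom MR) (matOf ρA b)
      (hres.trans hb.symm) (by rw [hres]; exact c.span_Mbar) fun g => by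
        rw [trace_mapRep]
        have h := rel_unique _ _ _ (hφ _) (rel_trace (MvPolynomial.X g))
        rw [htA, traceHom_X, traceHom_X] at h
        exact h
    obtain ⟨e1⟩ := toRep_baseChangeAlong Φ.toRingHom hΦloc MR hcont _
      (hcont.map _ hΦloc) rfl
    obtain ⟨e2⟩ := toRep_conj U (hcont.map Φ.toRingHom hΦloc) (mcont_matOf ρA b) hU
    obtain ⟨e3⟩ := isEquiv_toRep_matOf ρA b _ (mcont_matOf ρA b) rfl
    exact ⟨(e1.trans e2).trans e3.symm⟩
  · rintro Φ' ⟨hloc', hequiv⟩
    have htr : Φ'.comp (traceHom (𝒪 := 𝒪) MR) = tA := by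
      refine MvPolynomial.algHom_ext fun g => ?_
      rw [AlgHom.comp_apply, traceHom_X, htA, traceHom_X, ← trace_eq_trace_matOf,
        ← trace_eq_of_isEquiv hequiv g,
        trace_eq_of_isEquiv (toRep_baseChangeAlong (Φ' : L.R →+* A) hloc' MR hcont _
          (hcont.map _ hloc') rfl) g, trace_toRep, trace_mapRep]
      rfl
    refine AlgHom.ext fun r => rel_unique r _ _ (rel_of _ _ fun n => ?_) (hφ r)
    obtain ⟨p, hp⟩ := (X n).gen (L.π n r)
    refine ⟨p, hp.symm, ?_⟩
    rw [← htr, AlgHom.comp_apply, ← map_sub]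
    refine map_mem_maximalIdeal_pow (Φ' : L.R →+* A) hloc' ((L.π_eq_zero_iff n _).1 ?_)
    rw [map_sub, hchiR, ← hp, sub_self]

end FLTAgent.Deform

end
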